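/-
MOONSHOT S52, leaf K1-E: the residue field of a valuation subring of `Fb` over a place of `K(u)`
is `K` (`K` algebraically closed), hence decomposition = inertia.

`K` algebraically closed, `Fb ⊇ K` a field, `O` a valuation subring of `Fb` containing `K`,
`u ∈ Fb` with `O.valuation u < 1` (e.g. `u = t - c`, or `u = 1 / t` for the place at infinity).

* `exists_const_sub_lt_one` : every `x ∈ O` algebraic over `K(u)` is congruent to a constant
  modulo the maximal ideal of `O`;
* `valuation_apply_sub_lt_one` : a `K`-automorphism `σ` of `Fb` stabilising `O` moves such an `x`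
  by an element of the maximal ideal (`σ` is in the inertia group);
* `valuation_apply_eq` : such a `σ` preserves the valuation.
-/
import Mathlib
import Fermat.Agent.S05.Val
import Fermat.Agent.S05.Defs
import Fermat.Agent.S14.TransCore

set_option autoImplicit false
set_option linter.style.haveILetI false
set_option linter.unusedSectionVars false

namespace Fermat.Agent.SW.Bridge.ResConst

open Polynomial IntermediateField
open scoped IntermediateField.algebraAdjoinAdjoin

variable {K Fb : Type*} [Field K] [Field Fb] [Algebra K Fb]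

section Basic

variable (O : ValuationSubring Fb) (hK : ∀ z : K, algebraMap K Fb z ∈ O)
include hK

/-- Polynomial expressions in an element of `O` with constant coefficients lie in `O`. -/
theorem aeval_mem {u : Fb} (hu : u ∈ O) (P : K[X]) : aeval u P ∈ O := by
  induction P using Polynomial.induction_on' with
  | add p q hp hq => rw [map_add]; exact O.add_mem _ _ hp hq
  | monomial n a =>
    rw [aeval_monomial]
    exact O.mul_mem _ _ (hK a) (O.pow_mem hu n)

/-- A nonzero constant is a unit of `O`. -/
theorem valuation_const_eq_one {z : K} (hz : z ≠ 0) : O.valuation (algebraMap K Fb z) = 1 := by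
  have h1 : O.valuation (algebraMap K Fb z) ≤ 1 := (O.valuation_le_one_iff _).mpr (hK z)
  have h2 : O.valuation (algebraMap K Fb z⁻¹) ≤ 1 := (O.valuation_le_one_iff _).mpr (hK z⁻¹)
  have h3 : O.valuation (algebraMap K Fb z) * O.valuation (algebraMap K Fb z⁻¹) = 1 := by
    rw [← map_mul, ← map_mul, mul_inv_cancel₀ hz, map_one, map_one]
  refine le_antisymm h1 ?_
  calc (1 : _) = O.valuation (algebraMap K Fb z) * O.valuation (algebraMap K Fb z⁻¹) := h3.symm
    _ ≤ O.valuation (algebraMap K Fb z) * 1 := by gcongr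
    _ = _ := mul_one _

/-- `P(u) ≡ P(0)` modulo the maximal ideal, for `u` in the maximal ideal. -/
theorem valuation_aeval_sub_coeff_zero_lt {u : Fb} (hu : O.valuation u < 1) (P : K[X]) :
    O.valuation (aeval u P - algebraMap K Fb (P.coeff 0)) < 1 := by
  have huO : u ∈ O := (O.valuation_le_one_iff _).mp hu.le
  have h1 : aeval u P = aeval u P.divX * u + algebraMap K Fb (P.coeff 0) := by
    conv_lhs => rw [← divX_mul_X_add P]
    rw [map_add, map_mul, aeval_X, aeval_C]
  rw [h1, add_sub_cancel_right, map_mul]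
  exact Right.mul_lt_one_of_le_of_lt
    ((O.valuation_le_one_iff _).mpr (aeval_mem O hK huO _)) hu

/-- Every nonzero element of `K[u]` is `u ^ m` times an element congruent to a nonzero constant. -/
theorem exists_pow_mul {u : Fb} (hu : O.valuation u < 1) {r : Fb}
    (hr : r ∈ Algebra.adjoin K {u}) (hr0 : r ≠ 0) :
    ∃ (m : ℕ) (q : Fb) (z : K), z ≠ 0 ∧ q ∈ O ∧ r = u ^ m * q ∧
      O.valuation (q - algebraMap K Fb z) < 1 := by
  have huO : u ∈ O := (O.valuation_le_one_iff _).mp hu.le
  rw [Algebra.adjoin_singleton_eq_range_aeval] at hr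
  obtain ⟨P, rfl⟩ := hr
  have hP0 : P ≠ 0 := by
    rintro rfl
    exact hr0 (map_zero _)
  obtain ⟨Q, hPQ, hQ⟩ := exists_eq_pow_rootMultiplicity_mul_and_not_dvd P hP0 (0 : K)
  rw [map_zero, sub_zero] at hPQ hQ
  rw [X_dvd_iff] at hQ
  refine ⟨rootMultiplicity 0 P, aeval u Q, Q.coeff 0, hQ, aeval_mem O hK huO Q, ?_,
    valuation_aeval_sub_coeff_zero_lt O hK hu Q⟩
  show (aeval u) P = u ^ rootMultiplicity 0 P * (aeval u) Q
  conv_lhs => rw [hPQ]
  rw [map_mul, map_pow, aeval_X]

end Basic

section Main

variable [IsAlgClosed K] (O : ValuationSubring Fb) (hK : ∀ z : K, algebraMap K Fb z ∈ O)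
include hK

/-- An element of `O` which is, modulo the maximal ideal, a root of a nonzero polynomial with
constant coefficients is congruent to a constant. -/
theorem exists_const_of_aeval_lt {x : Fb} (_hx : x ∈ O) {Q : K[X]} (hQ : Q ≠ 0)
    (hQx : O.valuation (aeval x Q) < 1) :
    ∃ z : K, O.valuation (x - algebraMap K Fb z) < 1 := by
  by_contra hcon
  push Not at hcon
  have hsplit := IsAlgClosed.splits Q
  have h1 := hsplit.eq_prod_roots
  have hlc : Q.leadingCoeff ≠ 0 := leadingCoeff_ne_zero.mpr hQ
  have h2 : aeval x Q = algebraMap K Fb Q.leadingCoeff *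
      (Q.roots.map fun z => x - algebraMap K Fb z).prod := by
    conv_lhs => rw [h1]
    rw [map_mul, aeval_C, map_multiset_prod, Multiset.map_map]
    congr 2
    apply Multiset.map_congr rfl
    intro z _
    simp
  have h3 : ∀ s : Multiset K, 1 ≤ O.valuation ((s.map fun z => x - algebraMap K Fb z).prod) := by
    intro s
    induction s using Multiset.induction_on with
    | empty => simp
    | cons a s ih =>
      rw [Multiset.map_cons, Multiset.prod_cons, map_mul]
      exact one_le_mul_of_one_le_of_one_le (hcon a) ih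
  rw [h2, map_mul, valuation_const_eq_one O hK hlc, one_mul] at hQx
  exact absurd hQx (not_lt.mpr (h3 _))

/-- **Residue field = constants.**  Every `x ∈ O` which is algebraic over `K[u]`, `u` in the
maximal ideal of `O`, is congruent to a constant modulo the maximal ideal. -/
theorem exists_const_sub_lt_one_of_adjoin {u : Fb} (hu : O.valuation u < 1) {x : Fb} (hx : x ∈ O)
    (halg : ∃ p : Fb[X], p ≠ 0 ∧ (∀ i, p.coeff i ∈ Algebra.adjoin K {u}) ∧ p.eval x = 0) :
    ∃ z : K, O.valuation (x - algebraMap K Fb z) < 1 := by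
  classical
  obtain ⟨p, hp0, hpR, hpx⟩ := halg
  have huO : u ∈ O := (O.valuation_le_one_iff _).mp hu.le
  -- the degenerate case `u = 0`
  by_cases hu0 : u = 0
  · -- coefficients are constants
    have hconst : ∀ i, ∃ z : K, p.coeff i = algebraMap K Fb z := by
      intro i
      have := hpR i
      rw [hu0, Algebra.adjoin_singleton_eq_range_aeval] at this
      obtain ⟨P, hP⟩ := this
      refine ⟨P.coeff 0, ?_⟩
      rw [← hP]
      show aeval (0 : Fb) P = _
      rw [aeval_def, eval₂_at_zero]
    choose c hc using hconst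
    set Q : K[X] := ∑ i ∈ p.support, monomial i (c i) with hQdef
    have hQmap : Q.map (algebraMap K Fb) = p := by
      rw [hQdef, Polynomial.map_sum]
      conv_rhs => rw [p.as_sum_support]
      refine Finset.sum_congr rfl fun i _ => ?_
      rw [map_monomial, hc i]
    have hQ0 : Q ≠ 0 := by
      intro h
      apply hp0
      rw [← hQmap, h, Polynomial.map_zero]
    apply exists_const_of_aeval_lt O hK hx hQ0
    rw [aeval_def, ← eval_map, hQmap, hpx, map_zero]
    exact zero_lt_one
  -- the main case
  have hne : p.support.Nonempty := by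
    rwa [Finset.nonempty_iff_ne_empty, Ne, Polynomial.support_eq_empty]
  have hdata : ∀ i, i ∈ p.support → ∃ (m : ℕ) (q : Fb) (z : K), z ≠ 0 ∧ q ∈ O ∧
      p.coeff i = u ^ m * q ∧ O.valuation (q - algebraMap K Fb z) < 1 := fun i hi =>
    exists_pow_mul O hK hu (hpR i) (Polynomial.mem_support_iff.mp hi)
  choose! m q z hz hq hcoeff hqz using hdata
  obtain ⟨j, hj, hmin⟩ := Finset.exists_min_image p.support m hne
  -- the relation divided by `u ^ m j`
  have hrel : ∑ i ∈ p.support, u ^ (m i - m j) * q i * x ^ i = 0 := by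
    have h1 : u ^ m j * ∑ i ∈ p.support, u ^ (m i - m j) * q i * x ^ i = 0 := by
      rw [Finset.mul_sum]
      rw [eval_eq_sum, Polynomial.sum_def] at hpx
      rw [← hpx]
      refine Finset.sum_congr rfl fun i hi => ?_
      rw [hcoeff i hi, ← mul_assoc, ← mul_assoc, ← pow_add,
        Nat.add_sub_cancel' (hmin i hi)]
    exact (mul_eq_zero.mp h1).resolve_left (pow_ne_zero _ hu0)
  set Q : K[X] := ∑ i ∈ p.support.filter (fun i => m i = m j), monomial i (z i) with hQdef
  have hQ0 : Q ≠ 0 := by
    intro h
    have h1 : Q.coeff j = z j := by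
      rw [hQdef, finsetSum_coeff]
      rw [Finset.sum_eq_single j]
      · rw [coeff_monomial, if_pos rfl]
      · intro i _ hij
        rw [coeff_monomial, if_neg hij]
      · intro hjn
        exact absurd (Finset.mem_filter.mpr ⟨hj, (rfl : m j = m j)⟩) hjn
    rw [h, coeff_zero] at h1
    exact hz j hj h1.symm
  apply exists_const_of_aeval_lt O hK hx hQ0
  have hQx : aeval x Q =
      ∑ i ∈ p.support, (if m i = m j then algebraMap K Fb (z i) * x ^ i else 0) := by
    rw [hQdef, map_sum, Finset.sum_filter]
    refine Finset.sum_congr rfl fun i _ => ?_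
    split_ifs
    · rw [aeval_monomial]
    · rfl
  have hdiff : aeval x Q = ∑ i ∈ p.support,
      ((if m i = m j then algebraMap K Fb (z i) * x ^ i else 0) -
        u ^ (m i - m j) * q i * x ^ i) := by
    rw [Finset.sum_sub_distrib, hrel, sub_zero, hQx]
  rw [hdiff]
  apply Valuation.map_sum_lt _ one_ne_zero
  intro i hi
  have hxi : O.valuation (x ^ i) ≤ 1 := (O.valuation_le_one_iff _).mpr (O.pow_mem hx i)
  split_ifs with hmi
  · have h1 : algebraMap K Fb (z i) * x ^ i - u ^ (m i - m j) * q i * x ^ i =
        (algebraMap K Fb (z i) - q i) * x ^ i := by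
      rw [hmi, Nat.sub_self, pow_zero, one_mul]
      ring
    rw [h1, map_mul]
    refine mul_lt_one_of_nonneg_of_lt_one_left zero_le ?_ hxi
    rw [← Valuation.map_neg, neg_sub]
    exact hqz i hi
  · rw [zero_sub, Valuation.map_neg, map_mul, map_mul]
    have hpos : 0 < m i - m j := by
      have := hmin i hi
      omega
    have h1 : O.valuation (u ^ (m i - m j)) < 1 := by
      rw [map_pow]
      exact pow_lt_one₀ zero_le hu hpos.ne'
    have h2 : O.valuation (q i) ≤ 1 := (O.valuation_le_one_iff _).mpr (hq i hi)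
    exact mul_lt_one_of_nonneg_of_lt_one_left zero_le
      (mul_lt_one_of_nonneg_of_lt_one_left zero_le h1 h2) hxi

end Main

section Algebraic

variable [IsAlgClosed K] (O : ValuationSubring Fb) (hK : ∀ z : K, algebraMap K Fb z ∈ O)
include hK

/-- **Residue field = constants**, field form: every `x ∈ O` algebraic over `K(u)`, `u` in the
maximal ideal of `O`, is congruent to a constant modulo the maximal ideal. -/
theorem exists_const_sub_lt_one {u : Fb} (hu : O.valuation u < 1) {x : Fb} (hx : x ∈ O)
    (halg : IsAlgebraic K⟮u⟯ x) : ∃ z : K, O.valuation (x - algebraMap K Fb z) < 1 := by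
  have h1 : IsAlgebraic (Algebra.adjoin K {u}) x :=
    (IsFractionRing.isAlgebraic_iff (Algebra.adjoin K {u}) K⟮u⟯ Fb).mpr halg
  obtain ⟨p, hp0, hpx⟩ := h1
  apply exists_const_sub_lt_one_of_adjoin O hK hu hx
  refine ⟨p.map (algebraMap (Algebra.adjoin K {u}) Fb), ?_, fun i => ?_, ?_⟩
  · exact (Polynomial.map_ne_zero_iff
      (FaithfulSMul.algebraMap_injective (Algebra.adjoin K {u}) Fb)).mpr hp0
  · rw [coeff_map]
    exact (p.coeff i).2
  · rw [eval_map_algebraMap]
    exact hpx

/-- The same at a place at infinity: `t ∉ O`, `x` algebraic over `K(t)`. -/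
theorem exists_const_sub_lt_one_of_notMem {t : Fb} (ht : t ∉ O) {x : Fb} (hx : x ∈ O)
    (halg : IsAlgebraic K⟮t⟯ x) : ∃ z : K, O.valuation (x - algebraMap K Fb z) < 1 := by
  have ht0 : t ≠ 0 := fun h => ht (h ▸ O.zero_mem)
  have hu : O.valuation t⁻¹ < 1 := by
    rw [map_inv₀]
    have h1 : ¬ O.valuation t ≤ 1 := fun h => ht ((O.valuation_le_one_iff _).mp h)
    have h0 : O.valuation t ≠ 0 := (Valuation.ne_zero_iff _).mpr ht0
    exact (inv_lt_one₀ (zero_lt_iff.mpr h0)).mpr (not_le.mp h1)
  have hadj : K⟮t⁻¹⟯ = K⟮t⟯ := by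
    apply le_antisymm
    · rw [adjoin_simple_le_iff]
      exact K⟮t⟯.inv_mem (mem_adjoin_simple_self K t)
    · rw [adjoin_simple_le_iff]
      have := K⟮t⁻¹⟯.inv_mem (mem_adjoin_simple_self K t⁻¹)
      rwa [inv_inv] at this
  apply exists_const_sub_lt_one O hK hu hx
  rw [hadj]
  exact halg

end Algebraic

section Inertia

variable (O : ValuationSubring Fb)

/-- A ring endomorphism fixing the constants and preserving the maximal ideal moves an element
congruent to a constant by an element of the maximal ideal. -/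
theorem valuation_apply_sub_lt_one_of_const {σ : Fb →+* Fb}
    (hσK : ∀ z : K, σ (algebraMap K Fb z) = algebraMap K Fb z)
    (hσm : ∀ y : Fb, O.valuation y < 1 → O.valuation (σ y) < 1) {x : Fb}
    (hx : ∃ z : K, O.valuation (x - algebraMap K Fb z) < 1) : O.valuation (σ x - x) < 1 := by
  obtain ⟨z, hz⟩ := hx
  have h1 : σ x - x = σ (x - algebraMap K Fb z) - (x - algebraMap K Fb z) := by
    rw [map_sub, hσK]; ring
  rw [h1]
  exact Valuation.map_sub_lt _ (hσm _ hz) hz

/-- A field automorphism stabilising `O` elementwise preserves the maximal ideal. -/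
theorem valuation_apply_lt_one_of_stab {σ : Fb ≃+* Fb} (hσ : ∀ y : Fb, σ y ∈ O ↔ y ∈ O) (y : Fb)
    (hy : O.valuation y < 1) : O.valuation (σ y) < 1 := by
  rw [Fermat.Agent.S14.valuation_lt_one_iff_inv] at hy ⊢
  rcases hy with rfl | hy
  · left; exact map_zero σ
  · right
    rw [← map_inv₀, hσ]
    exact hy

variable [IsAlgClosed K]

/-- **Decomposition = inertia** over a finite place: a `K`-automorphism `σ` of `Fb` stabilising
`O ⊇ K` moves every `x ∈ O` algebraic over `K(u)` (`u` in the maximal ideal of `O`) by an element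
of the maximal ideal. -/
theorem valuation_apply_sub_lt_one (hK : ∀ z : K, algebraMap K Fb z ∈ O) {u : Fb}
    (hu : O.valuation u < 1) (σ : Fb ≃ₐ[K] Fb) (hσ : ∀ y : Fb, σ y ∈ O ↔ y ∈ O) {x : Fb}
    (hx : x ∈ O) (halg : IsAlgebraic K⟮u⟯ x) : O.valuation (σ x - x) < 1 :=
  valuation_apply_sub_lt_one_of_const O (σ := (σ : Fb →+* Fb)) (fun z => σ.commutes z)
    (valuation_apply_lt_one_of_stab O (σ := σ.toRingEquiv) hσ)
    (exists_const_sub_lt_one O hK hu hx halg)

/-- **Decomposition = inertia** over the place at infinity (`t ∉ O`). -/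
theorem valuation_apply_sub_lt_one_of_notMem (hK : ∀ z : K, algebraMap K Fb z ∈ O) {t : Fb}
    (ht : t ∉ O) (σ : Fb ≃ₐ[K] Fb) (hσ : ∀ y : Fb, σ y ∈ O ↔ y ∈ O) {x : Fb}
    (hx : x ∈ O) (halg : IsAlgebraic K⟮t⟯ x) : O.valuation (σ x - x) < 1 :=
  valuation_apply_sub_lt_one_of_const O (σ := (σ : Fb →+* Fb)) (fun z => σ.commutes z)
    (valuation_apply_lt_one_of_stab O (σ := σ.toRingEquiv) hσ)
    (exists_const_sub_lt_one_of_notMem O hK ht hx halg)

end Inertia

section InertiaLike

open WeierstrassCurve WeierstrassCurve.Affine Fermat.Agent.S05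
open scoped WeierstrassCurve.Affine

variable {T : Type*} [Field T] [Algebra T Fb] [Algebra.IsAlgebraic T Fb] [DecidableEq Fb]

/-- **The `S05.InertiaLike` record of an element of the decomposition group** of a valuation
subring whose residue field consists of constants fixed by `σ`. -/
theorem inertiaLike_of_decomposition (E : Affine T) (O : ValuationSubring Fb)
    {σ : Fb ≃ₐ[T] Fb} (hσ : σ ∈ O.decompositionSubgroup T)
    (hσK : ∀ z : K, σ (algebraMap K Fb z) = algebraMap K Fb z)
    (hres : ∀ x ∈ O, ∃ z : K, O.valuation (x - algebraMap K Fb z) < 1) :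
    InertiaLike O.valuation (E⁄Fb) (σ : Fb →+* Fb) (Point.map σ.toAlgHom) where
  val_eq x := valuation_apply_eq O hσ (Algebra.IsAlgebraic.isAlgebraic x)
  sub_lt x hx := by
    refine valuation_apply_sub_lt_one_of_const O (σ := (σ : Fb →+* Fb)) hσK ?_
      (hres x ((O.valuation_le_one_iff x).mp hx))
    intro y hy
    exact valuation_apply_lt_one_of_stab O (σ := σ.toRingEquiv)
      (fun y => apply_mem_iff_of_mem_decompositionSubgroup O hσ y) y hy
  map_some _ _ h := ⟨_, Point.map_some σ.toAlgHom h⟩

end InertiaLike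

end Fermat.Agent.SW.Bridge.ResConst
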