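/-
MOONSHOT S52, leaf K1-E (bridge), part (G2-II): from decomposition groups of valuation subrings of
an algebraic closure to the ramification indices of the function-field library.

Coordinate context of `FF/RHCoord.lean` / `SW/FFG/GenusRam.lean` (`F` finite over `RatFunc K`,
`K` algebraically closed of characteristic zero), with `F / RatFunc K` Galois and `Fb / RatFunc K`
a Galois extension containing `F` (an algebraic closure).

* `eOver_Bf_eq_one_of_decomposition_trivial`, `eOver_Binf_eq_one_of_decomposition_trivial` :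
  if the decomposition groups (in `Gal(Fb / RatFunc K)`) of all valuation subrings of `Fb` over the
  prime `w` of `Bf K F` (resp. `Binf K F`) act trivially on `F`, then `eOver K[X] w = 1`
  (resp. `eOver (Rinf K) w = 1`);
* `eOver_Bf_eq_one_of_unram_at`, `eOver_Binf_eq_one_of_unram_infty` : the same with the hypothesis
  on the valuation subrings over the place `X = α` (resp. `X = ∞`) of `RatFunc K`;
* `eOver_eq_one_of_forall_decomposition_trivial` : everywhere-unramified form.
-/
import Mathlib
import Fermat.Agent.SW.Bridge.UnramCore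
import Fermat.Agent.X0.RR.SetupEOver

set_option autoImplicit false
set_option linter.style.haveILetI false
set_option linter.unusedSectionVars false

open Polynomial Module IsDedekindDomain

namespace Fermat.Agent.SW.Bridge.UnramFF

open Fermat.Agent.X0.RR Fermat.Agent.SW.Bridge

variable (K F : Type*) [Field K] [Field F] [Algebra K F]
  [Algebra K[X] F] [Algebra (RatFunc K) F] [IsScalarTower K[X] (RatFunc K) F]
  [IsScalarTower K K[X] F] [IsScalarTower K (RatFunc K) F]
  [FiniteDimensional (RatFunc K) F] [IsGalois (RatFunc K) F]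
  (Fb : Type*) [Field Fb] [Algebra (RatFunc K) Fb] [Algebra F Fb]
  [IsScalarTower (RatFunc K) F Fb] [IsGalois (RatFunc K) Fb]

/-- **Bridge, finite places, `w`-form.** -/
theorem eOver_Bf_eq_one_of_decomposition_trivial (w : HeightOneSpectrum (Bf K F))
    (h : ∀ O : ValuationSubring Fb, (∀ b : Bf K F, algebraMap F Fb b ∈ O) →
      (∀ b : Bf K F, O.valuation (algebraMap F Fb b) < 1 ↔ b ∈ w.asIdeal) →
      ∀ σ ∈ O.decompositionSubgroup (RatFunc K), ∀ x : F,
        σ (algebraMap F Fb x) = algebraMap F Fb x) :
    eOver K[X] w = 1 := by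
  rw [eOver_eq_ramificationIdx]
  haveI := w.isMaximal
  exact UnramCore.ramificationIdx_eq_one_of_decomposition_trivial (R := K[X]) (T := RatFunc K)
    (Fb := Fb) w.asIdeal h

/-- **Bridge, infinite places, `w`-form.** -/
theorem eOver_Binf_eq_one_of_decomposition_trivial (w : HeightOneSpectrum (Binf K F))
    (h : ∀ O : ValuationSubring Fb, (∀ b : Binf K F, algebraMap F Fb b ∈ O) →
      (∀ b : Binf K F, O.valuation (algebraMap F Fb b) < 1 ↔ b ∈ w.asIdeal) →
      ∀ σ ∈ O.decompositionSubgroup (RatFunc K), ∀ x : F,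
        σ (algebraMap F Fb x) = algebraMap F Fb x) :
    eOver (Rinf K) w = 1 := by
  rw [eOver_eq_ramificationIdx]
  haveI := w.isMaximal
  exact UnramCore.ramificationIdx_eq_one_of_decomposition_trivial (R := Rinf K) (T := RatFunc K)
    (Fb := Fb) w.asIdeal h

/-- **Bridge, finite places, base form**: the hypothesis only mentions the restriction of the
valuation subring to `K[X]`. -/
theorem eOver_Bf_eq_one_of_unram_under (w : HeightOneSpectrum (Bf K F))
    (h : ∀ O : ValuationSubring Fb,
      (∀ p : K[X], algebraMap (RatFunc K) Fb (algebraMap K[X] (RatFunc K) p) ∈ O) →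
      (∀ p : K[X], p ∈ w.asIdeal.under K[X] →
        O.valuation (algebraMap (RatFunc K) Fb (algebraMap K[X] (RatFunc K) p)) < 1) →
      ∀ σ ∈ O.decompositionSubgroup (RatFunc K), ∀ x : F,
        σ (algebraMap F Fb x) = algebraMap F Fb x) :
    eOver K[X] w = 1 := by
  apply eOver_Bf_eq_one_of_decomposition_trivial K F Fb w
  intro O hO1 hO2
  have key : ∀ p : K[X], algebraMap (RatFunc K) Fb (algebraMap K[X] (RatFunc K) p) =
      algebraMap F Fb ((algebraMap K[X] (Bf K F) p : Bf K F) : F) := by
    intro p
    rw [IsScalarTower.algebraMap_apply (RatFunc K) F Fb,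
      ← IsScalarTower.algebraMap_apply K[X] (RatFunc K) F]
    rfl
  apply h O
  · intro p
    rw [key]
    exact hO1 _
  · intro p hp
    rw [key]
    exact (hO2 _).mpr hp

/-- **Bridge at the finite place `X = α`.** -/
theorem eOver_Bf_eq_one_of_unram_at (α : K)
    (h : ∀ O : ValuationSubring Fb,
      (∀ p : K[X], algebraMap (RatFunc K) Fb (algebraMap K[X] (RatFunc K) p) ∈ O) →
      O.valuation (algebraMap (RatFunc K) Fb (RatFunc.X - RatFunc.C α)) < 1 →
      ∀ σ ∈ O.decompositionSubgroup (RatFunc K), ∀ x : F,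
        σ (algebraMap F Fb x) = algebraMap F Fb x)
    (w : HeightOneSpectrum (Bf K F)) (hw : w.asIdeal.under K[X] = Ideal.span {X - C α}) :
    eOver K[X] w = 1 := by
  apply eOver_Bf_eq_one_of_unram_under K F Fb w
  intro O hO1 hO2
  apply h O hO1
  have h1 : (X - C α : K[X]) ∈ w.asIdeal.under K[X] := by
    rw [hw]
    exact Ideal.mem_span_singleton_self _
  have h2 := hO2 _ h1
  have h3 : algebraMap K[X] (RatFunc K) (X - C α) = RatFunc.X - RatFunc.C α := by
    rw [map_sub, RatFunc.algebraMap_X, RatFunc.algebraMap_C]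
  rwa [h3] at h2

/-- **Bridge at infinity.** -/
theorem eOver_Binf_eq_one_of_unram_infty
    (h : ∀ O : ValuationSubring Fb,
      (∀ r : RatFunc K, r ∈ Rinf K → algebraMap (RatFunc K) Fb r ∈ O) →
      O.valuation (algebraMap (RatFunc K) Fb (RatFunc.X)⁻¹) < 1 →
      ∀ σ ∈ O.decompositionSubgroup (RatFunc K), ∀ x : F,
        σ (algebraMap F Fb x) = algebraMap F Fb x)
    (w : HeightOneSpectrum (Binf K F)) : eOver (Rinf K) w = 1 := by
  apply eOver_Binf_eq_one_of_decomposition_trivial K F Fb w
  intro O hO1 hO2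
  have key : ∀ r : Rinf K, algebraMap (RatFunc K) Fb (r : RatFunc K) =
      algebraMap F Fb ((algebraMap (Rinf K) (Binf K F) r : Binf K F) : F) := by
    intro r
    rw [IsScalarTower.algebraMap_apply (RatFunc K) F Fb]
    rfl
  apply h O
  · intro r hr
    have := key ⟨r, hr⟩
    rw [this]
    exact hO1 _
  · have h1 : (Xinv : Rinf K) ∈ w.asIdeal.under (Rinf K) := by
      rw [Binf.under_eq_span_Xinv]
      exact Ideal.mem_span_singleton_self _
    have h2 := (hO2 (algebraMap (Rinf K) (Binf K F) Xinv)).mpr h1
    rw [← key] at h2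
    exact h2

section Global

variable {Fb}

omit [Algebra K F] [Algebra K[X] F] [Algebra (RatFunc K) F] [IsScalarTower K[X] (RatFunc K) F]
  [IsScalarTower K K[X] F] [IsScalarTower K (RatFunc K) F] [FiniteDimensional (RatFunc K) F]
  [IsGalois (RatFunc K) F] [Algebra F Fb] [IsScalarTower (RatFunc K) F Fb]
  [IsGalois (RatFunc K) Fb] [Field F] in
/-- A valuation subring with a nonzero nonunit is not `⊤`. -/
theorem ne_top_of_valuation_lt_one {O : ValuationSubring Fb} {z : Fb} (hz0 : z ≠ 0)
    (hz : O.valuation z < 1) : O ≠ ⊤ := by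
  rintro rfl
  have h1 : z⁻¹ ∈ (⊤ : ValuationSubring Fb) := ValuationSubring.mem_top _
  rw [← ValuationSubring.valuation_le_one_iff, map_inv₀] at h1
  have h2 : (⊤ : ValuationSubring Fb).valuation z ≠ 0 := (Valuation.ne_zero_iff _).mpr hz0
  have h3 : 1 ≤ (⊤ : ValuationSubring Fb).valuation z := by
    rwa [inv_le_one₀ (zero_lt_iff.mpr h2)] at h1
  exact absurd hz (not_lt.mpr h3)

omit [Algebra K F] [Algebra K[X] F] [Algebra (RatFunc K) F] [IsScalarTower K[X] (RatFunc K) F]
  [IsScalarTower K K[X] F] [IsScalarTower K (RatFunc K) F] [FiniteDimensional (RatFunc K) F]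
  [IsGalois (RatFunc K) F] [Algebra F Fb] [IsScalarTower (RatFunc K) F Fb]
  [IsGalois (RatFunc K) Fb] [Field F] in
theorem C_mem_Rinf (c : K) : (RatFunc.C c : RatFunc K) ∈ Rinf K := by
  rw [mem_Rinf_iff]
  by_cases hc : c = 0
  · left; rw [hc, map_zero]
  · right; rw [RatFunc.intDegree_C]

/-- **Bridge, unramified outside two finite places.**  If for every nontrivial valuation subring
`O ⊇ K` of `Fb` which is not centred at `X = α` nor at `X = β` the decomposition group of `O` acts
trivially on `F`, then `F / K(X)` is unramified outside `{α, β}` in the sense of the function-field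
library. -/
theorem eOver_eq_one_of_unram_outside (α β : K)
    (h : ∀ O : ValuationSubring Fb, O ≠ ⊤ →
      (∀ c : K, algebraMap (RatFunc K) Fb (RatFunc.C c) ∈ O) →
      ¬ O.valuation (algebraMap (RatFunc K) Fb (RatFunc.X - RatFunc.C α)) < 1 →
      ¬ O.valuation (algebraMap (RatFunc K) Fb (RatFunc.X - RatFunc.C β)) < 1 →
      ∀ σ ∈ O.decompositionSubgroup (RatFunc K), ∀ x : F,
        σ (algebraMap F Fb x) = algebraMap F Fb x) :
    (∀ v : HeightOneSpectrum (Bf K F), v.asIdeal.under K[X] ≠ Ideal.span {X - C α} →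
      v.asIdeal.under K[X] ≠ Ideal.span {X - C β} → eOver K[X] v = 1) ∧
    (∀ w : HeightOneSpectrum (Binf K F), eOver (Rinf K) w = 1) := by
  have hinjT : Function.Injective (algebraMap (RatFunc K) Fb) := (algebraMap (RatFunc K) Fb).injective
  constructor
  · intro v hvα hvβ
    apply eOver_Bf_eq_one_of_unram_under K F Fb v
    intro O hO1 hO2
    have hvmax : (v.asIdeal.under K[X]).IsMaximal := by
      haveI := v.isMaximal
      exact Ideal.IsMaximal.under K[X] v.asIdeal
    -- a nonzero element of the prime below `v`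
    have hne : v.asIdeal.under K[X] ≠ ⊥ := Ideal.under_ne_bot K[X] v.ne_bot
    obtain ⟨p, hp, hp0⟩ := Submodule.exists_mem_ne_zero_of_ne_bot hne
    have hp' := hO2 p hp
    have hpne : algebraMap (RatFunc K) Fb (algebraMap K[X] (RatFunc K) p) ≠ 0 := by
      intro h0
      apply hp0
      have := hinjT (h0.trans (map_zero _).symm)
      exact (IsFractionRing.injective K[X] (RatFunc K)) (this.trans (map_zero _).symm)
    have hcase : ∀ γ : K, v.asIdeal.under K[X] ≠ Ideal.span {X - C γ} →
        ¬ O.valuation (algebraMap (RatFunc K) Fb (RatFunc.X - RatFunc.C γ)) < 1 := by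
      intro γ hγ hlt
      apply hγ
      -- the centre of `O` on `K[X]` is a proper ideal containing both
      have hmaxγ : (Ideal.span {X - C γ} : Ideal K[X]).IsMaximal :=
        PrincipalIdealRing.isMaximal_of_irreducible (irreducible_X_sub_C γ)
      by_contra hneq
      -- `X - C γ ∉ v.under`, so `1 = a (X - C γ) + i` with `i ∈ v.under`
      have hnot : (X - C γ : K[X]) ∉ v.asIdeal.under K[X] := by
        intro hmem
        apply hneq
        have hle : Ideal.span {X - C γ} ≤ v.asIdeal.under K[X] :=
          (Ideal.span_singleton_le_iff_mem _).mpr hmem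
        exact (hmaxγ.eq_of_le hvmax.ne_top hle).symm
      obtain ⟨a, i, hi, hai⟩ := hvmax.exists_inv hnot
      have h1 : O.valuation (algebraMap (RatFunc K) Fb (algebraMap K[X] (RatFunc K) i)) < 1 :=
        hO2 i hi
      have h2 : O.valuation (algebraMap (RatFunc K) Fb
          (algebraMap K[X] (RatFunc K) (a * (X - C γ)))) < 1 := by
        rw [map_mul, map_mul, map_mul]
        have h3 : algebraMap K[X] (RatFunc K) (X - C γ) = RatFunc.X - RatFunc.C γ := by
          rw [map_sub, RatFunc.algebraMap_X, RatFunc.algebraMap_C]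
        rw [h3]
        exact Right.mul_lt_one_of_le_of_lt ((O.valuation_le_one_iff _).mpr (hO1 a)) hlt
      have h4 := Valuation.map_add_lt _ h2 h1
      rw [← map_add, ← map_add, hai, map_one, map_one, map_one] at h4
      exact lt_irrefl _ h4
    apply h O (ne_top_of_valuation_lt_one hpne hp')
    · intro c
      have : (RatFunc.C c : RatFunc K) = algebraMap K[X] (RatFunc K) (C c) := by
        rw [RatFunc.algebraMap_C]
      rw [this]
      exact hO1 _
    · exact hcase α hvα
    · exact hcase β hvβ
  · intro w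
    apply eOver_Binf_eq_one_of_unram_infty K F Fb _ w
    intro O hO1 hO2
    have hXne : algebraMap (RatFunc K) Fb (RatFunc.X)⁻¹ ≠ 0 := by
      rw [Ne, map_eq_zero, inv_eq_zero]
      exact RatFunc.X_ne_zero
    have hXgt : 1 < O.valuation (algebraMap (RatFunc K) Fb RatFunc.X) := by
      rw [map_inv₀, map_inv₀] at hO2
      have h0 : O.valuation (algebraMap (RatFunc K) Fb RatFunc.X) ≠ 0 := by
        rw [Valuation.ne_zero_iff, Ne, map_eq_zero]
        exact RatFunc.X_ne_zero
      rwa [inv_lt_one₀ (zero_lt_iff.mpr h0)] at hO2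
    have hC : ∀ c : K, algebraMap (RatFunc K) Fb (RatFunc.C c) ∈ O :=
      fun c => hO1 _ (C_mem_Rinf K c)
    have hcase : ∀ γ : K,
        ¬ O.valuation (algebraMap (RatFunc K) Fb (RatFunc.X - RatFunc.C γ)) < 1 := by
      intro γ hlt
      have h1 : O.valuation (algebraMap (RatFunc K) Fb (RatFunc.C γ)) ≤ 1 :=
        (O.valuation_le_one_iff _).mpr (hC γ)
      have h2 : algebraMap (RatFunc K) Fb RatFunc.X =
          algebraMap (RatFunc K) Fb (RatFunc.X - RatFunc.C γ) +
            algebraMap (RatFunc K) Fb (RatFunc.C γ) := by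
        rw [← map_add, sub_add_cancel]
      have h3 : O.valuation (algebraMap (RatFunc K) Fb RatFunc.X) ≤ 1 := by
        rw [h2]
        exact Valuation.map_add_le _ hlt.le h1
      exact absurd hXgt (not_lt.mpr h3)
    exact h O (ne_top_of_valuation_lt_one hXne hO2) hC (hcase α) (hcase β)

/-- **Bridge, everywhere unramified form.** -/
theorem eOver_eq_one_of_forall_decomposition_trivial
    (h : ∀ O : ValuationSubring Fb, O ≠ ⊤ →
      (∀ c : K, algebraMap (RatFunc K) Fb (RatFunc.C c) ∈ O) →
      ∀ σ ∈ O.decompositionSubgroup (RatFunc K), ∀ x : F,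
        σ (algebraMap F Fb x) = algebraMap F Fb x) :
    (∀ v : HeightOneSpectrum (Bf K F), eOver K[X] v = 1) ∧
    (∀ w : HeightOneSpectrum (Binf K F), eOver (Rinf K) w = 1) := by
  constructor
  · intro v
    apply eOver_Bf_eq_one_of_unram_under K F Fb v
    intro O hO1 hO2
    have hne : v.asIdeal.under K[X] ≠ ⊥ := Ideal.under_ne_bot K[X] v.ne_bot
    obtain ⟨p, hp, hp0⟩ := Submodule.exists_mem_ne_zero_of_ne_bot hne
    have hp' := hO2 p hp
    have hpne : algebraMap (RatFunc K) Fb (algebraMap K[X] (RatFunc K) p) ≠ 0 := by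
      intro h0
      apply hp0
      have := (algebraMap (RatFunc K) Fb).injective (h0.trans (map_zero _).symm)
      exact (IsFractionRing.injective K[X] (RatFunc K)) (this.trans (map_zero _).symm)
    apply h O (ne_top_of_valuation_lt_one hpne hp')
    intro c
    have : (RatFunc.C c : RatFunc K) = algebraMap K[X] (RatFunc K) (C c) := by
      rw [RatFunc.algebraMap_C]
    rw [this]
    exact hO1 _
  · intro w
    apply eOver_Binf_eq_one_of_unram_infty K F Fb _ w
    intro O hO1 hO2
    have hXne : algebraMap (RatFunc K) Fb (RatFunc.X)⁻¹ ≠ 0 := by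
      rw [Ne, map_eq_zero, inv_eq_zero]
      exact RatFunc.X_ne_zero
    exact h O (ne_top_of_valuation_lt_one hXne hO2) (fun c => hO1 _ (C_mem_Rinf K c))

end Global

end Fermat.Agent.SW.Bridge.UnramFF
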