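/-
MOONSHOT S52, leaf K1-E: the bridge (G2) plugged into helper12's (G0), (G1), (G3)
(`SW/FFG/GenusRam.lean`, `SW/FFG/RationalOfRam.lean`).

Context: `K` algebraically closed of characteristic zero, `F / RatFunc K` finite Galois,
`Fb / RatFunc K` Galois containing `F` (an algebraic closure).

* `finrank_eq_one_of_forall_decomposition_trivial` : if the decomposition group of EVERY nontrivial
  valuation subring `O ⊇ K` of `Fb` acts trivially on `F`, then `F = RatFunc K`;
* `genusFF_eq_zero_of_unram_outside`, `exists_generator_of_unram_outside` : if this holds for all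
  `O` not centred at `X = α` or `X = β`, then `F` has genus zero and `F = K(w)`.
-/
import Mathlib
import Fermat.Agent.SW.Bridge.UnramFF
import Fermat.Agent.SW.FFG.RationalOfRam

set_option autoImplicit false
set_option linter.style.haveILetI false
set_option linter.unusedSectionVars false

open AlgebraicCurve Polynomial Module IsDedekindDomain FunctionField IntermediateField

namespace Fermat.Agent.SW.Bridge.UnramGenus

open Fermat.Agent.X0.RR Fermat.Agent.FF Fermat.Agent.SW.Bridge Fermat.Agent.SW.FFG

variable (K F : Type*) [Field K] [Field F] [Algebra K F]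
  [Algebra K[X] F] [Algebra (RatFunc K) F] [IsScalarTower K[X] (RatFunc K) F]
  [IsScalarTower K K[X] F] [IsScalarTower K (RatFunc K) F]
  [FunctionField K F] [IsGalois (RatFunc K) F] [IsAlgClosed K] [CharZero K]
  {Fb : Type*} [Field Fb] [Algebra (RatFunc K) Fb] [Algebra F Fb]
  [IsScalarTower (RatFunc K) F Fb] [IsGalois (RatFunc K) Fb]

/-- **(G0) through the bridge**: everywhere unramified (in the valuation-subring sense) implies
trivial. -/
theorem finrank_eq_one_of_forall_decomposition_trivial
    (h : ∀ O : ValuationSubring Fb, O ≠ ⊤ →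
      (∀ c : K, algebraMap (RatFunc K) Fb (RatFunc.C c) ∈ O) →
      ∀ σ ∈ O.decompositionSubgroup (RatFunc K), ∀ x : F,
        σ (algebraMap F Fb x) = algebraMap F Fb x) :
    finrank (RatFunc K) F = 1 := by
  obtain ⟨h1, h2⟩ := UnramFF.eOver_eq_one_of_forall_decomposition_trivial K F h
  exact finrank_eq_one_of_unramified K F h1 h2

/-- Every element of `F` lies in `RatFunc K` if `F / RatFunc K` is everywhere unramified. -/
theorem exists_algebraMap_eq_of_forall_decomposition_trivial
    (h : ∀ O : ValuationSubring Fb, O ≠ ⊤ →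
      (∀ c : K, algebraMap (RatFunc K) Fb (RatFunc.C c) ∈ O) →
      ∀ σ ∈ O.decompositionSubgroup (RatFunc K), ∀ x : F,
        σ (algebraMap F Fb x) = algebraMap F Fb x) (x : F) :
    ∃ r : RatFunc K, algebraMap (RatFunc K) F r = x := by
  have h1 := finrank_eq_one_of_forall_decomposition_trivial K F h
  have h2 : (⊥ : Subalgebra (RatFunc K) F) = ⊤ := Subalgebra.bot_eq_top_of_finrank_eq_one h1
  have h3 : x ∈ (⊥ : Subalgebra (RatFunc K) F) := h2 ▸ Algebra.mem_top
  exact Algebra.mem_bot.mp h3

/-- **(G1) through the bridge.** -/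
theorem genusFF_eq_zero_of_unram_outside (α β : K)
    (h : ∀ O : ValuationSubring Fb, O ≠ ⊤ →
      (∀ c : K, algebraMap (RatFunc K) Fb (RatFunc.C c) ∈ O) →
      ¬ O.valuation (algebraMap (RatFunc K) Fb (RatFunc.X - RatFunc.C α)) < 1 →
      ¬ O.valuation (algebraMap (RatFunc K) Fb (RatFunc.X - RatFunc.C β)) < 1 →
      ∀ σ ∈ O.decompositionSubgroup (RatFunc K), ∀ x : F,
        σ (algebraMap F Fb x) = algebraMap F Fb x) :
    genusFF K F = 0 := by
  classical
  obtain ⟨h1, h2⟩ := UnramFF.eOver_eq_one_of_unram_outside K F α β h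
  refine genusFF_eq_zero_of_ramified_le_two K F
    ({Ideal.span {X - C α}, Ideal.span {X - C β}} : Finset (Ideal K[X])) (Finset.card_le_two)
    (fun v hv => ?_) h2
  rw [Finset.mem_insert, Finset.mem_singleton, not_or] at hv
  exact h1 v hv.1 hv.2

/-- **(G1) + (G3) through the bridge**: `F = K(w)`. -/
theorem exists_generator_of_unram_outside (α β : K)
    (h : ∀ O : ValuationSubring Fb, O ≠ ⊤ →
      (∀ c : K, algebraMap (RatFunc K) Fb (RatFunc.C c) ∈ O) →
      ¬ O.valuation (algebraMap (RatFunc K) Fb (RatFunc.X - RatFunc.C α)) < 1 →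
      ¬ O.valuation (algebraMap (RatFunc K) Fb (RatFunc.X - RatFunc.C β)) < 1 →
      ∀ σ ∈ O.decompositionSubgroup (RatFunc K), ∀ x : F,
        σ (algebraMap F Fb x) = algebraMap F Fb x) (P : Place K F) :
    ∃ w : F, K⟮w⟯ = ⊤ ∧ P.ord w = -1 ∧ ∀ Q : Place K F, Q ≠ P → 0 ≤ Q.ord w :=
  exists_generator_coord K F (genusFF_eq_zero_of_unram_outside K F α β h) P

end Fermat.Agent.SW.Bridge.UnramGenus
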