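/-
MOONSHOT S52, leaf K1-E: the function-field side of helper24's seam `SW/K1c/EContract`.

* `liftAdjoin` : an automorphism of `Fb / k` fixing `t`, as an automorphism of `Fb / k(t)`;
* `liftAdjoin_mem_inertiaSubgroupIn` : decomposition ⇒ inertia (Prelude's `inertiaSubgroupIn`
  over the base `↥k⟮t⟯`) at every nontrivial valuation subring containing the constants;
* `conj_mem_inertiaSubgroupIn`, `fixes_conj` : the inertia groups of conjugate valuation subrings
  are conjugate, hence an "inertia acts trivially" hypothesis passes to Galois conjugates;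
* `eCore1S` : `ECore1` for a Galois-stable `M`;
* `eCore2` : literally `EContract.ECore2`.
-/
import Mathlib
import Fermat.Agent.SW.K1c.EContract
import Fermat.Agent.SW.FFG.ComposeGalois
import Fermat.Agent.SW.Bridge.ResConst

set_option autoImplicit false
set_option linter.style.haveILetI false
set_option linter.unusedSectionVars false

namespace Fermat.Agent.SW.Bridge.ECore

open IntermediateField Polynomial
open scoped Pointwise

section Conj

variable {T L : Type*} [Field T] [Field L] [Algebra T L]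

/-- Elementwise stability gives membership of the decomposition group. -/
theorem mem_decompositionSubgroup_of_forall (O : ValuationSubring L) (σ : L ≃ₐ[T] L)
    (hσ : ∀ y : L, σ y ∈ O ↔ y ∈ O) : σ ∈ O.decompositionSubgroup T := by
  show σ ∈ MulAction.stabilizer (L ≃ₐ[T] L) O
  rw [MulAction.mem_stabilizer_iff]
  ext x
  rw [ValuationSubring.mem_pointwise_smul_iff_inv_smul_mem]
  have h1 : σ⁻¹ • x = σ.symm x := rfl
  rw [h1, ← hσ (σ.symm x), AlgEquiv.apply_symm_apply]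

/-- The inertia group of a conjugate valuation subring is the conjugate inertia group. -/
theorem conj_mem_inertiaSubgroupIn (O : ValuationSubring L) (τ σ : L ≃ₐ[T] L)
    (hσ : σ ∈ O.inertiaSubgroupIn T) : τ * σ * τ⁻¹ ∈ (τ • O).inertiaSubgroupIn T := by
  rw [Fermat.Agent.S14.mem_inertiaSubgroupIn_iff] at hσ ⊢
  obtain ⟨hD, hI⟩ := hσ
  have hD' : σ • O = O := hD
  refine ⟨?_, fun x hx => ?_⟩
  · show (τ * σ * τ⁻¹) • τ • O = τ • O
    rw [mul_smul, inv_smul_smul, mul_smul, hD']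
  · rw [ValuationSubring.mem_smul_pointwise_iff_exists] at hx
    obtain ⟨y, hy, rfl⟩ := hx
    have h1 : (τ * σ * τ⁻¹) (τ • y) - τ • y = τ (σ y - y) := by
      show τ (σ (τ⁻¹ (τ y))) - τ y = τ (σ y - y)
      have h2 : τ⁻¹ (τ y) = y := τ.symm_apply_apply y
      rw [h2, map_sub]
    rw [h1, Fermat.Agent.S14.valuation_smul_lt_one_iff]
    have h3 : τ⁻¹ (τ (σ y - y)) = σ y - y := τ.symm_apply_apply _
    rw [h3]
    exact hI y hy

end Conj

section Dict

variable {k Fb : Type*} [Field k] [Field Fb] [Algebra k Fb] (t : Fb)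

/-- An automorphism of `Fb / k` fixing a set pointwise fixes the field it generates. -/
theorem apply_eq_of_mem_adjoin_set (S : Set Fb) (τ : Fb →ₐ[k] Fb) (hτ : ∀ y ∈ S, τ y = y) {z : Fb}
    (hz : z ∈ adjoin k S) : τ z = z := by
  induction hz using IntermediateField.adjoin_induction with
  | mem x hx => exact hτ x hx
  | algebraMap x => exact τ.commutes x
  | add x y _ _ hx hy => rw [map_add, hx, hy]
  | inv x _ hx => rw [map_inv₀, hx]
  | mul x y _ _ hx hy => rw [map_mul, hx, hy]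

/-- An automorphism of `Fb / k` mapping a set into the field it generates stabilises that
field. -/
theorem apply_mem_adjoin_set (S : Set Fb) (τ : Fb →ₐ[k] Fb) (hτ : ∀ y ∈ S, τ y ∈ adjoin k S)
    {z : Fb} (hz : z ∈ adjoin k S) : τ z ∈ adjoin k S := by
  induction hz using IntermediateField.adjoin_induction with
  | mem x hx => exact hτ x hx
  | algebraMap x => rw [τ.commutes x]; exact (adjoin k S).algebraMap_mem x
  | add x y _ _ hx hy => rw [map_add]; exact add_mem hx hy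
  | inv x _ hx => rw [map_inv₀]; exact inv_mem hx
  | mul x y _ _ hx hy => rw [map_mul]; exact mul_mem hx hy

/-- An automorphism of `Fb / k` fixing `t` fixes `k(t)`. -/
theorem apply_eq_of_mem_adjoin_simple (τ : Fb ≃ₐ[k] Fb) (hτ : τ t = t) {y : Fb}
    (hy : y ∈ k⟮t⟯) : τ y = y := by
  refine apply_eq_of_mem_adjoin_set {t} (τ : Fb →ₐ[k] Fb) (fun y hy => ?_) hy
  rw [Set.mem_singleton_iff] at hy
  rw [hy]
  exact hτ

/-- An automorphism of `Fb / k` fixing `t`, as an automorphism of `Fb / k(t)`. -/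
noncomputable def liftAdjoin (τ : Fb ≃ₐ[k] Fb) (hτ : τ t = t) : Fb ≃ₐ[↥k⟮t⟯] Fb :=
  AlgEquiv.ofRingEquiv (f := τ.toRingEquiv)
    (fun y => apply_eq_of_mem_adjoin_simple t τ hτ y.2)

@[simp] theorem liftAdjoin_apply (τ : Fb ≃ₐ[k] Fb) (hτ : τ t = t) (x : Fb) :
    liftAdjoin t τ hτ x = τ x := rfl

/-- An automorphism of `Fb / k(t)` fixes the elements of `k(t)`. -/
theorem apply_eq_of_mem (σ : Fb ≃ₐ[↥k⟮t⟯] Fb) {y : Fb} (hy : y ∈ k⟮t⟯) : σ y = y :=
  σ.commutes ⟨y, hy⟩

theorem apply_t (σ : Fb ≃ₐ[↥k⟮t⟯] Fb) : σ t = t :=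
  apply_eq_of_mem t σ (mem_adjoin_simple_self k t)

theorem apply_const (σ : Fb ≃ₐ[↥k⟮t⟯] Fb) (c : k) : σ (algebraMap k Fb c) = algebraMap k Fb c :=
  apply_eq_of_mem t σ (k⟮t⟯.algebraMap_mem c)

end Dict

section Res

variable {k Fb : Type*} [Field k] [Field Fb] [Algebra k Fb] (t : Fb)

/-- A valuation subring containing `k(t)` is trivial, `Fb` being algebraic over `k(t)`. -/
theorem eq_top_of_adjoin_le (halg : ∀ x : Fb, IsAlgebraic ↥k⟮t⟯ x) (O : ValuationSubring Fb)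
    (h : ∀ y ∈ k⟮t⟯, y ∈ O) : O = ⊤ := by
  rw [eq_top_iff]
  intro x _
  have hx : IsIntegral ↥k⟮t⟯ x := (halg x).isIntegral
  let g : ↥k⟮t⟯ →+* O := (algebraMap ↥k⟮t⟯ Fb).codRestrict O.toSubring (fun c => h c c.2)
  have h1 : (O.subtype.comp g).IsIntegralElem x := hx
  have h2 : IsIntegral O x := RingHom.IsIntegralElem.of_comp h1
  obtain ⟨y, hy⟩ := IsIntegrallyClosed.isIntegral_iff.mp h2
  rw [← hy]
  exact y.2

variable [IsAlgClosed k]

/-- A nontrivial valuation subring containing the constants is centred at `t = ∞` or at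
`t = c`. -/
theorem notMem_or_exists_lt_one (halg : ∀ x : Fb, IsAlgebraic ↥k⟮t⟯ x) (O : ValuationSubring Fb)
    (hk : ∀ c : k, algebraMap k Fb c ∈ O) (hO : O ≠ ⊤) :
    t ∉ O ∨ ∃ c : k, O.valuation (t - algebraMap k Fb c) < 1 := by
  by_cases ht : t ∈ O
  swap
  · exact Or.inl ht
  right
  by_contra hcon
  apply hO
  apply eq_top_of_adjoin_le t halg O
  intro y hy
  rw [IntermediateField.mem_adjoin_simple_iff] at hy
  obtain ⟨r, s, rfl⟩ := hy
  by_cases hs : aeval t s = 0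
  · rw [hs, div_zero]; exact O.zero_mem
  have hs0 : s ≠ 0 := by
    rintro rfl
    exact hs (map_zero _)
  have h1 : ¬ O.valuation (aeval t s) < 1 := fun hlt =>
    hcon (ResConst.exists_const_of_aeval_lt O hk ht hs0 hlt)
  have h2 : O.valuation (aeval t r) ≤ 1 :=
    (O.valuation_le_one_iff _).mpr (ResConst.aeval_mem O hk ht r)
  rw [← O.valuation_le_one_iff, map_div₀]
  have h3 : 0 < O.valuation (aeval t s) :=
    zero_lt_iff.mpr ((Valuation.ne_zero_iff _).mpr hs)
  rw [div_le_one₀ h3]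
  exact h2.trans (not_lt.mp h1)

/-- **Decomposition ⇒ inertia.** -/
theorem valuation_apply_sub_lt_one (halg : ∀ x : Fb, IsAlgebraic ↥k⟮t⟯ x)
    (O : ValuationSubring Fb) (hk : ∀ c : k, algebraMap k Fb c ∈ O) (hO : O ≠ ⊤)
    (τ : Fb ≃ₐ[k] Fb) (hstab : ∀ y : Fb, τ y ∈ O ↔ y ∈ O) {x : Fb} (hx : x ∈ O) :
    O.valuation (τ x - x) < 1 := by
  rcases notMem_or_exists_lt_one t halg O hk hO with ht | ⟨c, hc⟩
  · exact ResConst.valuation_apply_sub_lt_one_of_notMem O hk ht τ hstab hx (halg x)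
  · refine ResConst.valuation_apply_sub_lt_one O hk hc τ hstab hx ?_
    have hadj : k⟮t - algebraMap k Fb c⟯ = k⟮t⟯ := by
      apply le_antisymm
      · rw [adjoin_simple_le_iff]
        exact sub_mem (mem_adjoin_simple_self k t) (k⟮t⟯.algebraMap_mem c)
      · rw [adjoin_simple_le_iff]
        have := add_mem (mem_adjoin_simple_self k (t - algebraMap k Fb c))
          (k⟮t - algebraMap k Fb c⟯.algebraMap_mem c)
        rwa [sub_add_cancel] at this
    rw [hadj]
    exact halg x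

/-- **Decomposition ⇒ inertia**, in the Prelude's vocabulary over the base `↥k⟮t⟯`. -/
theorem liftAdjoin_mem_inertiaSubgroupIn (halg : ∀ x : Fb, IsAlgebraic ↥k⟮t⟯ x)
    (O : ValuationSubring Fb) (hk : ∀ c : k, algebraMap k Fb c ∈ O) (hO : O ≠ ⊤)
    (τ : Fb ≃ₐ[k] Fb) (hτ : τ t = t) (hstab : ∀ y : Fb, τ y ∈ O ↔ y ∈ O) :
    liftAdjoin t τ hτ ∈ O.inertiaSubgroupIn ↥k⟮t⟯ := by
  rw [Fermat.Agent.S14.mem_inertiaSubgroupIn_iff]
  refine ⟨mem_decompositionSubgroup_of_forall O _ hstab, fun x hx => ?_⟩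
  exact valuation_apply_sub_lt_one t halg O hk hO τ hstab hx

/-- The same for an automorphism given over `k(t)`. -/
theorem mem_inertiaSubgroupIn_of_mem_decompositionSubgroup (halg : ∀ x : Fb, IsAlgebraic ↥k⟮t⟯ x)
    (O : ValuationSubring Fb) (hk : ∀ c : k, algebraMap k Fb c ∈ O) (hO : O ≠ ⊤)
    (σ : Fb ≃ₐ[↥k⟮t⟯] Fb) (hσ : σ ∈ O.decompositionSubgroup ↥k⟮t⟯) :
    σ ∈ O.inertiaSubgroupIn ↥k⟮t⟯ := by
  rw [Fermat.Agent.S14.mem_inertiaSubgroupIn_iff]
  refine ⟨hσ, fun x hx => ?_⟩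
  exact valuation_apply_sub_lt_one t halg O hk hO (σ.restrictScalars k)
    (fun y => Fermat.Agent.S05.apply_mem_iff_of_mem_decompositionSubgroup O hσ y) hx

end Res

section FixesConj

variable {k Fb : Type*} [Field k] [Field Fb] [Algebra k Fb] (t : Fb)

/-- An "inertia acts trivially on `z`" hypothesis, for a conjugation-invariant family of valuation
subrings, passes to the Galois conjugates of `z`. -/
theorem fixes_conj (z : Fb) (P : ValuationSubring Fb → Prop)
    (hP : ∀ (O : ValuationSubring Fb) (τ : Fb ≃ₐ[↥k⟮t⟯] Fb), P O → P (τ • O))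
    (h : ∀ O : ValuationSubring Fb, (∀ c : k, algebraMap k Fb c ∈ O) → P O →
      ∀ σ ∈ O.inertiaSubgroupIn ↥k⟮t⟯, σ z = z) :
    ∀ (τ : Fb ≃ₐ[↥k⟮t⟯] Fb) (O : ValuationSubring Fb), (∀ c : k, algebraMap k Fb c ∈ O) → P O →
      ∀ σ ∈ O.inertiaSubgroupIn ↥k⟮t⟯, σ (τ z) = τ z := by
  intro τ O hk hPO σ hσ
  have h1 := conj_mem_inertiaSubgroupIn O τ⁻¹ σ hσ
  have hk' : ∀ c : k, algebraMap k Fb c ∈ τ⁻¹ • O := by
    intro c
    rw [ValuationSubring.mem_pointwise_smul_iff_inv_smul_mem, inv_inv]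
    show τ (algebraMap k Fb c) ∈ O
    rw [apply_const]
    exact hk c
  have h2 := h (τ⁻¹ • O) hk' (hP O τ⁻¹ hPO) _ h1
  rw [inv_inv] at h2
  have h3 : τ⁻¹ (σ (τ z)) = z := h2
  have h4 : τ (τ⁻¹ (σ (τ z))) = σ (τ z) := τ.apply_symm_apply _
  rw [← h4, h3]

end FixesConj

/-- `ECore1` for a Galois-stable `M`. -/
def ECore1S : Prop :=
  ∀ (k Fb : Type) [Field k] [Field Fb] [Algebra k Fb] [IsAlgClosed k] [CharZero k]
    [IsAlgClosed Fb] (t : Fb), Transcendental k t → (∀ x : Fb, IsAlgebraic ↥k⟮t⟯ x) →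
    ∀ (M : IntermediateField k Fb) (s : Finset Fb),
      M = IntermediateField.adjoin k (insert t (s : Set Fb)) →
    (∀ σ : Fb ≃ₐ[↥k⟮t⟯] Fb, ∀ z ∈ M, σ z ∈ M) →
    ∀ α β : k,
      (∀ O : ValuationSubring Fb, (∀ z : k, algebraMap k Fb z ∈ O) →
        ¬ O.valuation ((t - algebraMap k Fb α) * (t - algebraMap k Fb β)) < 1 →
        ∀ σ ∈ O.inertiaSubgroupIn ↥k⟮t⟯, ∀ z ∈ M, σ z = z) →
      ∃ w ∈ M, ∀ z ∈ M, z ∈ k⟮w⟯

theorem eCore1S : ECore1S := by
  intro k Fb _ _ _ _ _ _ t htr halg M s hM hstab α β h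
  classical
  have ht : t ∈ M := by
    rw [hM]
    exact subset_adjoin k _ (Set.mem_insert t _)
  have hFG : M.FG := by
    rw [hM]
    exact fg_adjoin_of_finite ((Finset.finite_toSet s).insert t)
  refine Fermat.Agent.SW.FFG.Gal.exists_generator_of_unram_outside M t ht htr hFG halg
    (fun σ hσ z hz => hstab (liftAdjoin t σ hσ) z hz) α β ?_
  intro O hO hk hα hβ τ hτ hstabO z hz
  refine h O hk ?_ (liftAdjoin t τ hτ)
    (liftAdjoin_mem_inertiaSubgroupIn t halg O hk hO τ hτ hstabO) z hz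
  rw [map_mul, not_lt]
  exact one_le_mul_of_one_le_of_one_le (not_lt.mp hα) (not_lt.mp hβ)

theorem eCore2 : Fermat.Agent.SW.K1c.EContract.ECore2 := by
  intro k Fb _ _ _ _ _ _ t htr halg x h
  classical
  haveI : Algebra.IsAlgebraic ↥k⟮t⟯ Fb := ⟨halg⟩
  haveI : IsAlgClosure ↥k⟮t⟯ Fb := ⟨inferInstance, inferInstance⟩
  haveI : Normal ↥k⟮t⟯ Fb := IsAlgClosure.normal ↥k⟮t⟯ Fb
  set p := minpoly ↥k⟮t⟯ x with hp
  have hxint : IsIntegral ↥k⟮t⟯ x := (halg x).isIntegral
  have hp0 : p ≠ 0 := minpoly.ne_zero hxint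
  set S : Set Fb := insert t (p.rootSet Fb) with hS
  set Ω : IntermediateField k Fb := adjoin k S with hΩ
  have ht : t ∈ Ω := subset_adjoin k _ (Set.mem_insert t _)
  have hxS : x ∈ S := by
    right
    rw [mem_rootSet]
    exact ⟨hp0, minpoly.aeval _ _⟩
  have hFG : Ω.FG := fg_adjoin_of_finite ((rootSet_finite p Fb).insert t)
  -- the generators are conjugates of `x`, hence fixed by inertia
  have hgen : ∀ y ∈ S, ∀ O : ValuationSubring Fb, (∀ c : k, algebraMap k Fb c ∈ O) →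
      ∀ σ ∈ O.inertiaSubgroupIn ↥k⟮t⟯, σ y = y := by
    intro y hy O hk σ hσ
    rcases hy with rfl | hy
    · exact apply_t _ σ
    · rw [mem_rootSet] at hy
      obtain ⟨ρ, rfl⟩ := minpoly.exists_algEquiv_of_root' (halg x) hy.2
      exact fixes_conj t x (fun _ => True) (fun _ _ _ => trivial)
        (fun O hk _ σ hσ => h O hk σ hσ) ρ O hk trivial σ hσ
  have hstab : ∀ σ : Fb ≃ₐ[k] Fb, σ t = t → ∀ z ∈ Ω, σ z ∈ Ω := by
    intro σ hσ z hz
    refine apply_mem_adjoin_set S (σ : Fb →ₐ[k] Fb) (fun y hy => ?_) hz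
    apply subset_adjoin k S
    rcases hy with rfl | hy
    · left; exact hσ
    · right
      rw [mem_rootSet] at hy ⊢
      refine ⟨hp0, ?_⟩
      have h1 : aeval (liftAdjoin t σ hσ y) p = liftAdjoin t σ hσ (aeval y p) :=
        aeval_algHom_apply (liftAdjoin t σ hσ : Fb →ₐ[↥k⟮t⟯] Fb) y p
      rw [hy.2, map_zero] at h1
      exact h1
  refine Fermat.Agent.SW.FFG.Gal.mem_adjoin_of_forall_decomp Ω t ht htr hFG halg hstab ?_ x
    (subset_adjoin k S hxS)
  intro O hO hk τ hτ hstabO z hz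
  refine apply_eq_of_mem_adjoin_set S (τ : Fb →ₐ[k] Fb) (fun y hy => ?_) hz
  exact hgen y hy O hk (liftAdjoin t τ hτ)
    (liftAdjoin_mem_inertiaSubgroupIn t halg O hk hO τ hτ hstabO)

end Fermat.Agent.SW.Bridge.ECore
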