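/-
MOONSHOT S52, leaf K1-E: literally `EContract.ECore1`, from `ECore.eCore1S` (the Galois-stable
case) applied to the normal closure, and Lüroth's theorem (Mathlib).
-/
import Mathlib
import Fermat.Agent.SW.Bridge.ECore

set_option autoImplicit false
set_option linter.style.haveILetI false
set_option linter.unusedSectionVars false

namespace Fermat.Agent.SW.Bridge.ECore

open IntermediateField Polynomial
open scoped Pointwise

section Luroth

variable {k L : Type*} [Field k] [Field L] [Algebra k L]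

/-- **Lüroth's theorem** (Mathlib's `RatFunc.Luroth.eq_adjoin_generator`, transported): an
intermediate field contained in `k(r)`, `r` transcendental, is simple. -/
theorem exists_adjoin_simple_eq_of_le_adjoin (r : L) (hr : Transcendental k r)
    (M : IntermediateField k L) (hM : M ≤ k⟮r⟯) : ∃ w : L, M = k⟮w⟯ := by
  classical
  let e : RatFunc k ≃ₐ[k] k⟮r⟯ := RatFunc.algEquivOfTranscendental r hr
  let φ : RatFunc k →ₐ[k] L := (k⟮r⟯.val).comp e.toAlgHom
  have hrange : ∀ x : L, x ∈ k⟮r⟯ → ∃ u : RatFunc k, φ u = x := by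
    intro x hx
    refine ⟨e.symm ⟨x, hx⟩, ?_⟩
    simp [φ]
  let M' : IntermediateField k (RatFunc k) := M.comap φ
  have hM' : M' = k⟮RatFunc.Luroth.generator M'⟯ := RatFunc.Luroth.eq_adjoin_generator
  refine ⟨φ (RatFunc.Luroth.generator M'), ?_⟩
  have h1 : M'.map φ = M := by
    apply le_antisymm
    · rintro x ⟨y, hy, rfl⟩
      exact hy
    · intro x hx
      obtain ⟨y, rfl⟩ := hrange x (hM hx)
      exact ⟨y, hx, rfl⟩
  rw [← h1]
  conv_lhs => rw [hM']
  rw [IntermediateField.adjoin_map, Set.image_singleton]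

end Luroth

/-- **E-core 1**, literally helper24's contract. -/
theorem eCore1 : Fermat.Agent.SW.K1c.EContract.ECore1 := by
  intro k Fb _ _ _ _ _ _ t htr halg M s hM α β h
  classical
  haveI : Algebra.IsAlgebraic ↥k⟮t⟯ Fb := ⟨halg⟩
  haveI : IsAlgClosure ↥k⟮t⟯ Fb := ⟨inferInstance, inferInstance⟩
  haveI : Normal ↥k⟮t⟯ Fb := IsAlgClosure.normal ↥k⟮t⟯ Fb
  -- the generators of the normal closure
  set s' : Finset Fb := s.biUnion (fun y => ((minpoly ↥k⟮t⟯ y).aroots Fb).toFinset) with hs'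
  have hmem : ∀ y' : Fb, y' ∈ s' ↔ ∃ y ∈ s, aeval y' (minpoly ↥k⟮t⟯ y) = 0 := by
    intro y'
    rw [hs', Finset.mem_biUnion]
    constructor
    · rintro ⟨y, hy, hy'⟩
      rw [Multiset.mem_toFinset, mem_aroots] at hy'
      exact ⟨y, hy, hy'.2⟩
    · rintro ⟨y, hy, hy'⟩
      refine ⟨y, hy, ?_⟩
      rw [Multiset.mem_toFinset, mem_aroots]
      exact ⟨minpoly.ne_zero (halg y).isIntegral, hy'⟩
  set N : IntermediateField k Fb := adjoin k (insert t (s' : Set Fb)) with hN
  have hMN : M ≤ N := by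
    rw [hM, adjoin_le_iff]
    rintro y (rfl | hy)
    · exact subset_adjoin k _ (Set.mem_insert _ _)
    · apply subset_adjoin k _
      right
      rw [Finset.mem_coe, hmem]
      exact ⟨y, hy, minpoly.aeval _ _⟩
  -- stability of `N`
  have hstab : ∀ σ : Fb ≃ₐ[↥k⟮t⟯] Fb, ∀ z ∈ N, σ z ∈ N := by
    intro σ z hz
    refine apply_mem_adjoin_set (insert t (s' : Set Fb)) ((σ.restrictScalars k : Fb ≃ₐ[k] Fb) :
      Fb →ₐ[k] Fb) (fun y hy => ?_) hz
    apply subset_adjoin k _
    rcases hy with rfl | hy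
    · left; exact apply_t _ σ
    · right
      rw [Finset.mem_coe, hmem] at hy ⊢
      obtain ⟨y₀, hy₀, hy⟩ := hy
      refine ⟨y₀, hy₀, ?_⟩
      have h1 : aeval (σ y) (minpoly ↥k⟮t⟯ y₀) = σ (aeval y (minpoly ↥k⟮t⟯ y₀)) :=
        aeval_algHom_apply (σ : Fb →ₐ[↥k⟮t⟯] Fb) y _
      rw [hy, map_zero] at h1
      exact h1
  -- the side condition is conjugation invariant
  have hx0 : (t - algebraMap k Fb α) * (t - algebraMap k Fb β) ∈ k⟮t⟯ :=
    mul_mem (sub_mem (mem_adjoin_simple_self k t) (k⟮t⟯.algebraMap_mem α))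
      (sub_mem (mem_adjoin_simple_self k t) (k⟮t⟯.algebraMap_mem β))
  have hP : ∀ (O : ValuationSubring Fb) (τ : Fb ≃ₐ[↥k⟮t⟯] Fb),
      ¬ O.valuation ((t - algebraMap k Fb α) * (t - algebraMap k Fb β)) < 1 →
      ¬ (τ • O).valuation ((t - algebraMap k Fb α) * (t - algebraMap k Fb β)) < 1 := by
    intro O τ hO
    rw [Fermat.Agent.S14.valuation_smul_lt_one_iff, apply_eq_of_mem t τ⁻¹ hx0]
    exact hO
  -- the inertia hypothesis passes to `N`
  have hNfix : ∀ O : ValuationSubring Fb, (∀ z : k, algebraMap k Fb z ∈ O) →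
      ¬ O.valuation ((t - algebraMap k Fb α) * (t - algebraMap k Fb β)) < 1 →
      ∀ σ ∈ O.inertiaSubgroupIn ↥k⟮t⟯, ∀ z ∈ N, σ z = z := by
    intro O hk hPO σ hσ z hz
    refine apply_eq_of_mem_adjoin_set (insert t (s' : Set Fb))
      ((σ.restrictScalars k : Fb ≃ₐ[k] Fb) : Fb →ₐ[k] Fb) (fun y hy => ?_) hz
    rcases hy with rfl | hy
    · exact apply_t _ σ
    · rw [Finset.mem_coe, hmem] at hy
      obtain ⟨y₀, hy₀, hy⟩ := hy
      have hy₀M : y₀ ∈ M := by
        rw [hM]
        exact subset_adjoin k _ (Set.mem_insert_of_mem _ hy₀)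
      obtain ⟨ρ, rfl⟩ := minpoly.exists_algEquiv_of_root' (halg y₀) hy
      exact fixes_conj t y₀
        (fun O => ¬ O.valuation ((t - algebraMap k Fb α) * (t - algebraMap k Fb β)) < 1) hP
        (fun O hk hPO σ hσ => h O hk hPO σ hσ y₀ hy₀M) ρ O hk hPO σ hσ
  obtain ⟨w, -, hw⟩ := eCore1S k Fb t htr halg N s' hN hstab α β hNfix
  -- `w` is transcendental
  have htN : t ∈ N := subset_adjoin k _ (Set.mem_insert _ _)
  have hwtr : Transcendental k w := by
    intro hw'
    have h1 : Algebra.IsAlgebraic k k⟮w⟯ := isAlgebraic_adjoin_simple hw'.isIntegral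
    have h2 : IsAlgebraic k (⟨t, hw t htN⟩ : k⟮w⟯) := Algebra.IsAlgebraic.isAlgebraic _
    rw [IntermediateField.isAlgebraic_iff] at h2
    exact htr h2
  obtain ⟨w', hw'⟩ := exists_adjoin_simple_eq_of_le_adjoin w hwtr M
    (fun z hz => hw z (hMN hz))
  refine ⟨w', ?_, fun z hz => ?_⟩
  · rw [hw']; exact mem_adjoin_simple_self k w'
  · rw [← hw']; exact hz

end Fermat.Agent.SW.Bridge.ECore
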