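/-
MOONSHOT S52, leaf K1-E (bridge), part (G2-I'): centres of valuation subrings on the integral closure
of a general base ring `R` (Bézout domain: a PID such as `K[X]`, or a valuation ring).

For a field `L` algebraic over (the fraction field of) `R` and a valuation subring `A ⊇ R` of `L`:

* `exists_div_of_relation` : the Horner trick in abstract form;
* `hasIntDiv_of_isBezout` : every element of `A` is a quotient `b / s` of elements integral over
  `R` with `s` a unit of `A` (`HasIntDiv R A`);
* `centerIdeal`, `eq_of_centerIdeal_eq` : `A` is determined by its centre on `integralClosure R L`;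
* `centerIdeal_smul`, `centerIdeal_comap`.
-/
import Mathlib
import Fermat.Agent.S14.TransCore

set_option autoImplicit false
set_option linter.style.haveILetI false
set_option linter.unusedSectionVars false

namespace Fermat.Agent.SW.Bridge.CenterR

open Polynomial
open scoped Pointwise
open Fermat.Agent.S54.FrobExists (hornerU hornerU_zero hornerU_succ hornerU_mul_pow hornerU_eq_add
  hornerU_mem_of_inv_mem hornerU_mem_of_mem)
open Fermat.Agent.S14 (valuation_smul_lt_one_iff valuation_comap_lt_one_iff)

section Horner

variable {R L : Type*} [CommRing R] [Field L] [Algebra R L]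

/-- Elements integral over `R` lie in every valuation subring of `L` containing the image of
`R`. -/
theorem integral_mem (A : ValuationSubring L) (hRA : ∀ r : R, algebraMap R L r ∈ A) {b : L}
    (hb : IsIntegral R b) : b ∈ A := by
  let g : R →+* A := (algebraMap R L).codRestrict A.toSubring hRA
  have h1 : (A.subtype.comp g).IsIntegralElem b := hb
  have h2 : IsIntegral A b := RingHom.IsIntegralElem.of_comp h1
  obtain ⟨y, hy⟩ := IsIntegrallyClosed.isIntegral_iff.mp h2
  rw [← hy]
  exact y.2

/-- All the Horner partial sums of a relation with integral coefficients are integral. -/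
theorem isIntegral_hornerU {x : L} (hx : x ≠ 0) (a : ℕ → L)
    (ha : ∀ i, IsIntegral R (a i)) (n : ℕ) (hn : ∀ k, n ≤ k → hornerU a x k = 0) (k : ℕ) :
    IsIntegral R (hornerU a x k) := by
  by_contra hcon
  set S : Subring L := (integralClosure R L).toSubring with hS
  have hnot : hornerU a x k ∉ S := fun h => hcon h
  have : IsIntegrallyClosedIn S L := inferInstanceAs (IsIntegrallyClosedIn (integralClosure R L) L)
  obtain ⟨W, hSW, hW⟩ := Subring.exists_le_valuationSubring_of_isIntegrallyClosedIn hnot
  apply hW
  have ha' : ∀ i, a i ∈ W.toSubring := fun i => hSW (ha i)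
  rcases W.mem_or_inv_mem x with h | h
  · exact hornerU_mem_of_mem _ hx W.toSubring ha' h n hn k
  · exact hornerU_mem_of_inv_mem _ x W.toSubring ha' h k

/-- **Horner trick, abstract form.** If `x ∈ A` satisfies a polynomial relation with coefficients
integral over `R`, one of which is a unit of `A`, then `x = b / s` with `b`, `s` integral over `R`
and `s` a unit of `A`. -/
theorem exists_div_of_relation (A : ValuationSubring L) (hRA : ∀ r : R, algebraMap R L r ∈ A)
    {x : L} (hx0 : x ≠ 0) (hx : x ∈ A) (a : ℕ → L) (ha : ∀ i, IsIntegral R (a i)) (n : ℕ)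
    (hn : ∀ k, n ≤ k → hornerU a x k = 0) (i₀ : ℕ) (hi₀ : A.valuation (a i₀) = 1) :
    ∃ b s : L, IsIntegral R b ∧ IsIntegral R s ∧ A.valuation s = 1 ∧ x = b / s := by
  have hu_int : ∀ k, IsIntegral R (hornerU a x k) := isIntegral_hornerU hx0 a ha n hn
  have hu_mem : ∀ k, hornerU a x k ∈ A := fun k => integral_mem A hRA (hu_int k)
  have hvx : A.valuation x ≤ 1 := (A.valuation_le_one_iff x).mpr hx
  have hex : ∃ r, ¬ A.valuation (hornerU a x r) < 1 := by
    by_contra hall
    push Not at hall
    have hcoef : A.valuation (a i₀) < 1 := by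
      have h1 : a i₀ = hornerU a x i₀ - x * hornerU a x (i₀ + 1) := by
        rw [hornerU_eq_add a hx0 i₀]; ring
      rw [h1]
      refine Valuation.map_sub_lt _ (hall i₀) ?_
      rw [map_mul]
      exact Right.mul_lt_one_of_le_of_lt hvx (hall (i₀ + 1))
    rw [hi₀] at hcoef
    exact lt_irrefl _ hcoef
  obtain ⟨r, hr⟩ := hex
  have hr1 : A.valuation (hornerU a x r) = 1 :=
    le_antisymm ((A.valuation_le_one_iff _).mpr (hu_mem r)) (not_lt.mp hr)
  cases r with
  | zero =>
    rw [hornerU_zero, map_zero] at hr1
    exact absurd hr1 zero_ne_one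
  | succ r =>
    have hs0 : hornerU a x (r + 1) ≠ 0 := by
      intro h0
      rw [h0, map_zero] at hr1
      exact zero_ne_one hr1
    refine ⟨hornerU a x r - a r, hornerU a x (r + 1), ?_, hu_int _, hr1, ?_⟩
    · exact (hu_int r).sub (ha r)
    · rw [eq_div_iff hs0, hornerU_succ]
      field_simp

/-- Every element of `A` is a quotient of elements integral over `R` with denominator a unit of
`A`. -/
def HasIntDiv (R : Type*) {L : Type*} [CommRing R] [Field L] [Algebra R L]
    (A : ValuationSubring L) : Prop :=
  ∀ x ∈ A, ∃ b s : L, IsIntegral R b ∧ IsIntegral R s ∧ A.valuation s = 1 ∧ x = b / s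

/-- Over a Bézout domain (a PID, a valuation ring) every valuation subring of an algebraic
extension containing the base ring has `HasIntDiv`. -/
theorem hasIntDiv_of_isBezout [IsDomain R] [IsBezout R] [FaithfulSMul R L]
    (halg : ∀ x : L, IsAlgebraic R x) (A : ValuationSubring L)
    (hRA : ∀ r : R, algebraMap R L r ∈ A) : HasIntDiv R A := by
  intro x hx
  rcases eq_or_ne x 0 with rfl | hx0
  · exact ⟨0, 1, isIntegral_zero, isIntegral_one, by simp, by simp⟩
  obtain ⟨p, hp0, hpx⟩ := halg x
  have hinj : Function.Injective (algebraMap R L) := FaithfulSMul.algebraMap_injective R L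
  -- the content ideal is principal
  set I : Ideal R := Ideal.span (p.coeff '' (p.support : Set ℕ)) with hI
  have hfg : I.FG := Submodule.fg_span ((Finset.finite_toSet p.support).image _)
  obtain ⟨d, hd⟩ : ∃ d : R, I = Ideal.span {d} := by
    have := IsBezout.isPrincipal_of_FG I hfg
    exact ⟨Submodule.IsPrincipal.generator I, (Ideal.span_singleton_generator I).symm⟩
  have hcoefI : ∀ i, p.coeff i ∈ I := fun i => by
    by_cases hi : i ∈ p.support
    · exact Ideal.subset_span ⟨i, hi, rfl⟩
    · rw [Polynomial.notMem_support_iff.mp hi]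
      exact Ideal.zero_mem _
  have hd0 : d ≠ 0 := by
    rintro rfl
    apply hp0
    ext i
    have := hcoefI i
    rw [hd, Ideal.span_singleton_zero, Ideal.mem_bot] at this
    rw [this, coeff_zero]
  have hex : ∀ i, ∃ c : R, p.coeff i = d * c := fun i => by
    have := hcoefI i
    rw [hd, Ideal.mem_span_singleton'] at this
    obtain ⟨c, hc⟩ := this
    exact ⟨c, by rw [← hc, mul_comm]⟩
  choose c hc using hex
  -- the contraction of the maximal ideal of `A`
  set P : Ideal R := Ideal.comap ((algebraMap R L).codRestrict A.toSubring hRA)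
    (IsLocalRing.maximalIdeal A) with hP
  have hPmem : ∀ r : R, r ∈ P ↔ A.valuation (algebraMap R L r) < 1 := fun r => by
    rw [hP, Ideal.mem_comap, A.valuation_lt_one_iff]
    rfl
  have hPtop : P ≠ ⊤ :=
    (Ideal.comap_isPrime ((algebraMap R L).codRestrict A.toSubring hRA)
      (IsLocalRing.maximalIdeal A)).ne_top
  -- some `c i` is not in `P`
  have hex2 : ∃ i₀, c i₀ ∉ P := by
    by_contra hall
    push Not at hall
    apply hPtop
    have hle : I ≤ Ideal.span {d} * P := by
      rw [hI, Ideal.span_le]
      rintro _ ⟨i, -, rfl⟩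
      rw [hc i]
      exact Ideal.mul_mem_mul (Ideal.mem_span_singleton_self d) (hall i)
    have hdI : d ∈ I := by rw [hd]; exact Ideal.mem_span_singleton_self d
    have := hle hdI
    rw [Ideal.mem_span_singleton_mul] at this
    obtain ⟨z, hz, hdz⟩ := this
    have hz1 : z = 1 := by
      have : d * z = d * 1 := by rw [hdz, mul_one]
      exact mul_left_cancel₀ hd0 this
    rw [Ideal.eq_top_iff_one, ← hz1]
    exact hz
  obtain ⟨i₀, hi₀⟩ := hex2
  set a : ℕ → L := fun i => algebraMap R L (c i) with ha_def
  have ha_int : ∀ i, IsIntegral R (a i) := fun i => isIntegral_algebraMap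
  have hdL : algebraMap R L d ≠ 0 := fun h => hd0 (hinj (by rw [h, map_zero]))
  have hn : ∀ k, p.natDegree + 1 ≤ k → hornerU a x k = 0 := by
    intro k hk
    have h := hornerU_mul_pow a hx0 k
    have h2 : algebraMap R L d * ∑ i ∈ Finset.range k, a i * x ^ i = aeval x p := by
      rw [aeval_eq_sum_range' (by omega : p.natDegree < k), Finset.mul_sum]
      refine Finset.sum_congr rfl fun i _ => ?_
      rw [Algebra.smul_def, hc i, map_mul, ha_def]
      ring
    rw [hpx] at h2
    have h3 : ∑ i ∈ Finset.range k, a i * x ^ i = 0 :=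
      (mul_eq_zero.mp h2).resolve_left hdL
    rw [h3, neg_zero] at h
    exact (mul_eq_zero.mp h).resolve_right (pow_ne_zero k hx0)
  have hval : A.valuation (a i₀) = 1 := by
    rw [hPmem, not_lt] at hi₀
    exact le_antisymm ((A.valuation_le_one_iff _).mpr (hRA _)) hi₀
  exact exists_div_of_relation A hRA hx0 hx a ha_int _ hn i₀ hval

end Horner

section Center

variable {R L : Type*} [CommRing R] [Field L] [Algebra R L]

/-- The centre, on the integral closure of `R` in `L`, of a valuation subring of `L` containing the
image of `R`. -/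
noncomputable def centerIdeal (A : ValuationSubring L) (hRA : ∀ r : R, algebraMap R L r ∈ A) :
    Ideal (integralClosure R L) where
  carrier := {b | A.valuation (b : L) < 1}
  add_mem' := fun {a b} ha hb => by
    show A.valuation (((a + b : integralClosure R L)) : L) < 1
    rw [AddMemClass.coe_add]
    exact Valuation.map_add_lt _ ha hb
  zero_mem' := by
    show A.valuation (((0 : integralClosure R L)) : L) < 1
    rw [ZeroMemClass.coe_zero, map_zero]
    exact zero_lt_one
  smul_mem' := fun c b hb => by
    show A.valuation ((c * b : integralClosure R L) : L) < 1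
    rw [MulMemClass.coe_mul, map_mul]
    exact Right.mul_lt_one_of_le_of_lt
      ((A.valuation_le_one_iff _).mpr (integral_mem A hRA c.2)) hb

theorem mem_centerIdeal_iff (A : ValuationSubring L) (hRA : ∀ r : R, algebraMap R L r ∈ A)
    (b : integralClosure R L) : b ∈ centerIdeal A hRA ↔ A.valuation (b : L) < 1 := Iff.rfl

instance centerIdeal_isPrime (A : ValuationSubring L) (hRA : ∀ r : R, algebraMap R L r ∈ A) :
    (centerIdeal A hRA).IsPrime := by
  refine ⟨?_, ?_⟩
  · intro h
    have h1 : (1 : integralClosure R L) ∈ centerIdeal A hRA := h ▸ Submodule.mem_top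
    rw [mem_centerIdeal_iff, OneMemClass.coe_one, map_one] at h1
    exact lt_irrefl _ h1
  · intro x y hxy
    rw [mem_centerIdeal_iff, MulMemClass.coe_mul, map_mul] at hxy
    by_contra hcon
    push Not at hcon
    obtain ⟨hx, hy⟩ := hcon
    rw [mem_centerIdeal_iff, not_lt] at hx hy
    have hx1 : A.valuation (x : L) = 1 :=
      le_antisymm ((A.valuation_le_one_iff _).mpr (integral_mem A hRA x.2)) hx
    have hy1 : A.valuation (y : L) = 1 :=
      le_antisymm ((A.valuation_le_one_iff _).mpr (integral_mem A hRA y.2)) hy
    rw [hx1, hy1, mul_one] at hxy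
    exact lt_irrefl _ hxy

theorem valuation_eq_one_of_not_mem_centerIdeal (A : ValuationSubring L)
    (hRA : ∀ r : R, algebraMap R L r ∈ A) {b : integralClosure R L}
    (hb : b ∉ centerIdeal A hRA) : A.valuation (b : L) = 1 := by
  rw [mem_centerIdeal_iff, not_lt] at hb
  exact le_antisymm ((A.valuation_le_one_iff _).mpr (integral_mem A hRA b.2)) hb

/-- Inclusion of centres forces inclusion of valuation subrings. -/
theorem le_of_centerIdeal_le (A A' : ValuationSubring L) (hA : HasIntDiv R A)
    (hRA : ∀ r : R, algebraMap R L r ∈ A) (hRA' : ∀ r : R, algebraMap R L r ∈ A')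
    (h : centerIdeal A' hRA' ≤ centerIdeal A hRA) : A ≤ A' := by
  intro x hx
  obtain ⟨b, s, hb, hs, hvs, rfl⟩ := hA x hx
  have hsQ : (⟨s, hs⟩ : integralClosure R L) ∉ centerIdeal A' hRA' := by
    intro hmem
    have := h hmem
    rw [mem_centerIdeal_iff, hvs] at this
    exact lt_irrefl _ this
  have h1 : A'.valuation s = 1 := valuation_eq_one_of_not_mem_centerIdeal A' hRA' hsQ
  rw [← A'.valuation_le_one_iff, map_div₀, h1, div_one, A'.valuation_le_one_iff]
  exact integral_mem A' hRA' hb

/-- A valuation subring of `L` containing `R` (with `HasIntDiv`) is determined by its centre on the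
integral closure of `R`. -/
theorem eq_of_centerIdeal_eq (A A' : ValuationSubring L) (hA : HasIntDiv R A)
    (hA' : HasIntDiv R A') (hRA : ∀ r : R, algebraMap R L r ∈ A)
    (hRA' : ∀ r : R, algebraMap R L r ∈ A') (h : centerIdeal A' hRA' = centerIdeal A hRA) :
    A = A' :=
  le_antisymm (le_of_centerIdeal_le A A' hA hRA hRA' h.le)
    (le_of_centerIdeal_le A' A hA' hRA' hRA h.ge)

end Center

section Galois

variable {R T L : Type*} [CommRing R] [Field T] [Field L] [Algebra R T] [Algebra T L]
  [Algebra R L] [IsScalarTower R T L]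

/-- `Gal(L/T)` commutes with the scalar action of `R` on `L` when `R → T → L` is a tower. -/
theorem smulCommClass_of_tower : SMulCommClass (L ≃ₐ[T] L) R L :=
  ⟨fun g r x => by
    show g (r • x) = r • g x
    rw [algebra_compatible_smul T r x, map_smul, ← algebra_compatible_smul T r (g x)]⟩

attribute [local instance] smulCommClass_of_tower

theorem smul_mem_of_tower (σ : L ≃ₐ[T] L) (A : ValuationSubring L)
    (hRA : ∀ r : R, algebraMap R L r ∈ A) : ∀ r : R, algebraMap R L r ∈ σ • A := by
  intro r
  rw [ValuationSubring.mem_pointwise_smul_iff_inv_smul_mem]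
  have : σ⁻¹ • algebraMap R L r = algebraMap R L r := by
    show σ⁻¹ (algebraMap R L r) = _
    rw [IsScalarTower.algebraMap_apply R T L, AlgEquiv.commutes]
  rw [this]
  exact hRA r

theorem centerIdeal_smul (σ : L ≃ₐ[T] L) (A : ValuationSubring L)
    (hRA : ∀ r : R, algebraMap R L r ∈ A) (hRA' : ∀ r : R, algebraMap R L r ∈ σ • A) :
    centerIdeal (σ • A) hRA' = σ • centerIdeal A hRA := by
  ext b
  rw [mem_centerIdeal_iff, valuation_smul_lt_one_iff, Ideal.mem_pointwise_smul_iff_inv_smul_mem,
    mem_centerIdeal_iff]
  rfl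

/-- `HasIntDiv` is invariant under `Gal(L/T)`. -/
theorem HasIntDiv.smul {A : ValuationSubring L} (hA : HasIntDiv R A) (σ : L ≃ₐ[T] L) :
    HasIntDiv R (σ • A) := by
  intro x hx
  rw [ValuationSubring.mem_pointwise_smul_iff_inv_smul_mem] at hx
  obtain ⟨b, s, hb, hs, hvs, hxbs⟩ := hA _ hx
  have hσ : ∀ y : L, IsIntegral R y → IsIntegral R (σ y) := fun y hy => by
    have := hy.map ((σ : L ≃ₐ[T] L).toAlgHom.restrictScalars R)
    exact this
  refine ⟨σ b, σ s, hσ b hb, hσ s hs, ?_, ?_⟩
  · have h1 : ¬ (σ • A).valuation (σ s) < 1 := by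
      rw [valuation_smul_lt_one_iff]
      have : σ⁻¹ (σ s) = s := by
        show σ.symm (σ s) = s
        exact σ.symm_apply_apply s
      rw [this, hvs]
      exact lt_irrefl _
    have h2 : σ s ∈ σ • A := by
      rw [ValuationSubring.mem_pointwise_smul_iff_inv_smul_mem]
      have : σ⁻¹ • σ s = s := by
        show σ.symm (σ s) = s
        exact σ.symm_apply_apply s
      rw [this, ← A.valuation_le_one_iff, hvs]
    exact le_antisymm (((σ • A).valuation_le_one_iff _).mpr h2) (not_lt.mp h1)
  · have h3 : σ (σ⁻¹ • x) = x := by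
      show σ (σ.symm x) = x
      exact σ.apply_symm_apply x
    rw [← h3, hxbs, map_div₀]

end Galois

end Fermat.Agent.SW.Bridge.CenterR
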