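/-
MOONSHOT S52, leaf K1-E (bridge), part (G2-I): pure valuation theory over an arbitrary base field.

For a field extension `L / K` which is algebraic, and a valuation subring `A` of `L` with trace
`V = A ∩ K` on `K`:

* `exists_integral_div` : every element of `A` is a quotient `b / s` of elements integral over `V`
  with `s` a unit of `A` (generalises `S54.FrobExists.exists_integral_div` from `ℤ` to `V`);
* `le_of_centerIdeal_le`, `eq_of_centerIdeal_eq` : valuation subrings of `L` with trace `V` are
  determined by their centre on the integral closure of `V` in `L`;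
* `exists_mem_decompositionSubgroup_restrictNormalHom_eq` : **lifting decomposition groups** — for
  `L / K` Galois (possibly infinite), `E` a normal subextension, every element of the decomposition
  group of `A ∩ E` in `Gal(E/K)` is the restriction of an element of the decomposition group of
  `A` in `Gal(L/K)`;
* `exists_smul_eq_of_comap_eq` : **conjugacy** — two valuation subrings of `L` with the same trace
  on `K` are conjugate under `Gal(L/K)`.
-/
import Mathlib
import Fermat.Agent.S14.TransCore

set_option autoImplicit false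
set_option linter.style.haveILetI false
set_option linter.unusedSectionVars false

namespace Fermat.Agent.SW.Bridge.ValConj

open Polynomial
open scoped Pointwise
open Fermat.Agent.S54.FrobExists (hornerU hornerU_zero hornerU_succ hornerU_mul_pow hornerU_eq_add
  hornerU_mem_of_inv_mem hornerU_mem_of_mem)
open Fermat.Agent.S14 (valuation_smul_lt_one_iff valuation_comap_lt_one_iff)

section Horner

variable {K L : Type*} [Field K] [Field L] [Algebra K L]

/-- Elements integral over a valuation subring `V` of `K` lie in every valuation subring of `L`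
containing the image of `V`. -/
theorem integral_mem (V : ValuationSubring K) (A : ValuationSubring L)
    (hVA : V ≤ A.comap (algebraMap K L)) {b : L} (hb : IsIntegral V b) : b ∈ A := by
  let g : V →+* A := ((algebraMap K L).comp V.subtype).codRestrict A.toSubring
    (fun c => hVA c.2)
  have h1 : (A.subtype.comp g).IsIntegralElem b := hb
  have h2 : IsIntegral A b := RingHom.IsIntegralElem.of_comp h1
  obtain ⟨y, hy⟩ := IsIntegrallyClosed.isIntegral_iff.mp h2
  rw [← hy]
  exact y.2

/-- All the Horner partial sums of a relation with integral coefficients are integral. -/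
theorem isIntegral_hornerU (V : ValuationSubring K) {x : L} (hx : x ≠ 0) (a : ℕ → L)
    (ha : ∀ i, IsIntegral V (a i)) (n : ℕ) (hn : ∀ k, n ≤ k → hornerU a x k = 0) (k : ℕ) :
    IsIntegral V (hornerU a x k) := by
  by_contra hcon
  set R : Subring L := (integralClosure V L).toSubring with hR
  have hnot : hornerU a x k ∉ R := fun h => hcon h
  have : IsIntegrallyClosedIn R L := inferInstanceAs (IsIntegrallyClosedIn (integralClosure V L) L)
  obtain ⟨W, hRW, hW⟩ := Subring.exists_le_valuationSubring_of_isIntegrallyClosedIn hnot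
  apply hW
  have ha' : ∀ i, a i ∈ W.toSubring := fun i => hRW (ha i)
  rcases W.mem_or_inv_mem x with h | h
  · exact hornerU_mem_of_mem _ hx W.toSubring ha' h n hn k
  · exact hornerU_mem_of_inv_mem _ x W.toSubring ha' h k

/-- A nonzero polynomial over `K` can be rescaled to have coefficients in `V`, one of them `1`. -/
theorem exists_scaled (V : ValuationSubring K) {p : K[X]} (hp : p ≠ 0) :
    ∃ q : K[X], (∃ c : K, c ≠ 0 ∧ q = C c * p) ∧ (∀ i, q.coeff i ∈ V) ∧ ∃ i, q.coeff i = 1 := by
  have hne : p.support.Nonempty := by
    rwa [Finset.nonempty_iff_ne_empty, Ne, Polynomial.support_eq_empty]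
  obtain ⟨i₀, hi₀, hmax⟩ := Finset.exists_max_image p.support
    (fun i => V.valuation (p.coeff i)) hne
  have hc0 : p.coeff i₀ ≠ 0 := Polynomial.mem_support_iff.mp hi₀
  refine ⟨C (p.coeff i₀)⁻¹ * p, ⟨_, inv_ne_zero hc0, rfl⟩, fun i => ?_, i₀, ?_⟩
  · rw [coeff_C_mul, ← V.valuation_le_one_iff, map_mul, map_inv₀]
    by_cases hi : i ∈ p.support
    · have h1 := hmax i hi
      have h0 : V.valuation (p.coeff i₀) ≠ 0 := (Valuation.ne_zero_iff _).mpr hc0
      rw [inv_mul_le_iff₀ (zero_lt_iff.mpr h0), mul_one]
      exact h1
    · rw [Polynomial.notMem_support_iff.mp hi, map_zero, mul_zero]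
      exact zero_le_one
  · rw [coeff_C_mul, inv_mul_cancel₀ hc0]

/-- Key lemma: every element of a valuation subring `A` of `L`, algebraic over `K`, is a quotient
of two elements integral over `V = A ∩ K` whose denominator is a unit of `A`. -/
theorem exists_integral_div (A : ValuationSubring L) {x : L} (hxalg : IsAlgebraic K x)
    (hx : x ∈ A) :
    ∃ b s : L, IsIntegral (A.comap (algebraMap K L)) b ∧
      IsIntegral (A.comap (algebraMap K L)) s ∧ A.valuation s = 1 ∧ x = b / s := by
  set V := A.comap (algebraMap K L) with hV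
  rcases eq_or_ne x 0 with rfl | hx0
  · exact ⟨0, 1, isIntegral_zero, isIntegral_one, by simp, by simp⟩
  obtain ⟨p0, hp0, hp0x⟩ := hxalg
  obtain ⟨p, ⟨c, hc, hpc⟩, hpV, i₀, hi₀⟩ := exists_scaled V hp0
  have hpx : aeval x p = 0 := by rw [hpc, map_mul, hp0x, mul_zero]
  set a : ℕ → L := fun i => algebraMap K L (p.coeff i) with ha_def
  have ha_int : ∀ i, IsIntegral V (a i) := fun i => by
    have : a i = algebraMap V L ⟨p.coeff i, hpV i⟩ := rfl
    rw [this]
    exact isIntegral_algebraMap
  have hn : ∀ k, p.natDegree + 1 ≤ k → hornerU a x k = 0 := by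
    intro k hk
    have h := hornerU_mul_pow a hx0 k
    have h2 : ∑ i ∈ Finset.range k, a i * x ^ i = aeval x p := by
      rw [aeval_eq_sum_range' (by omega : p.natDegree < k)]
      refine Finset.sum_congr rfl fun i _ => ?_
      rw [Algebra.smul_def]
    rw [h2, hpx, neg_zero] at h
    exact (mul_eq_zero.mp h).resolve_right (pow_ne_zero k hx0)
  have hu_int : ∀ k, IsIntegral V (hornerU a x k) :=
    isIntegral_hornerU V hx0 a ha_int _ hn
  have hu_mem : ∀ k, hornerU a x k ∈ A := fun k => integral_mem V A le_rfl (hu_int k)
  have hvx : A.valuation x ≤ 1 := (A.valuation_le_one_iff x).mpr hx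
  have hex : ∃ r, ¬ A.valuation (hornerU a x r) < 1 := by
    by_contra hall
    push Not at hall
    have hcoef : A.valuation (a i₀) < 1 := by
      have h1 : a i₀ = hornerU a x i₀ - x * hornerU a x (i₀ + 1) := by
        rw [hornerU_eq_add a hx0 i₀]; ring
      rw [h1]
      refine Valuation.map_sub_lt _ (hall i₀) ?_
      rw [map_mul]
      exact Right.mul_lt_one_of_le_of_lt hvx (hall (i₀ + 1))
    have : a i₀ = 1 := by rw [ha_def]; simp only; rw [hi₀, map_one]
    rw [this, map_one] at hcoef
    exact lt_irrefl _ hcoef
  obtain ⟨r, hr⟩ := hex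
  have hr1 : A.valuation (hornerU a x r) = 1 :=
    le_antisymm ((A.valuation_le_one_iff _).mpr (hu_mem r)) (not_lt.mp hr)
  cases r with
  | zero =>
    rw [hornerU_zero, map_zero] at hr1
    exact absurd hr1 zero_ne_one
  | succ r =>
    have hs0 : hornerU a x (r + 1) ≠ 0 := by
      intro h0
      rw [h0, map_zero] at hr1
      exact zero_ne_one hr1
    refine ⟨hornerU a x r - a r, hornerU a x (r + 1), ?_, hu_int _, hr1, ?_⟩
    · exact (hu_int r).sub (ha_int r)
    · rw [eq_div_iff hs0, hornerU_succ]
      field_simp

end Horner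

section Center

variable {K L : Type*} [Field K] [Field L] [Algebra K L] (V : ValuationSubring K)

/-- The centre, on the integral closure of `V` in `L`, of a valuation subring of `L` containing the
image of `V`. -/
noncomputable def centerIdeal (A : ValuationSubring L) (hVA : V ≤ A.comap (algebraMap K L)) :
    Ideal (integralClosure V L) where
  carrier := {b | A.valuation (b : L) < 1}
  add_mem' := fun {a b} ha hb => by
    show A.valuation (((a + b : integralClosure V L)) : L) < 1
    rw [AddMemClass.coe_add]
    exact Valuation.map_add_lt _ ha hb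
  zero_mem' := by
    show A.valuation (((0 : integralClosure V L)) : L) < 1
    rw [ZeroMemClass.coe_zero, map_zero]
    exact zero_lt_one
  smul_mem' := fun c b hb => by
    show A.valuation ((c * b : integralClosure V L) : L) < 1
    rw [MulMemClass.coe_mul, map_mul]
    exact Right.mul_lt_one_of_le_of_lt
      ((A.valuation_le_one_iff _).mpr (integral_mem V A hVA c.2)) hb

theorem mem_centerIdeal_iff (A : ValuationSubring L) (hVA : V ≤ A.comap (algebraMap K L))
    (b : integralClosure V L) : b ∈ centerIdeal V A hVA ↔ A.valuation (b : L) < 1 := Iff.rfl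

instance centerIdeal_isPrime (A : ValuationSubring L) (hVA : V ≤ A.comap (algebraMap K L)) :
    (centerIdeal V A hVA).IsPrime := by
  refine ⟨?_, ?_⟩
  · intro h
    have h1 : (1 : integralClosure V L) ∈ centerIdeal V A hVA := h ▸ Submodule.mem_top
    rw [mem_centerIdeal_iff, OneMemClass.coe_one, map_one] at h1
    exact lt_irrefl _ h1
  · intro x y hxy
    rw [mem_centerIdeal_iff, MulMemClass.coe_mul, map_mul] at hxy
    by_contra hcon
    push Not at hcon
    obtain ⟨hx, hy⟩ := hcon
    rw [mem_centerIdeal_iff, not_lt] at hx hy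
    have hx1 : A.valuation (x : L) = 1 :=
      le_antisymm ((A.valuation_le_one_iff _).mpr (integral_mem V A hVA x.2)) hx
    have hy1 : A.valuation (y : L) = 1 :=
      le_antisymm ((A.valuation_le_one_iff _).mpr (integral_mem V A hVA y.2)) hy
    rw [hx1, hy1, mul_one] at hxy
    exact lt_irrefl _ hxy

theorem valuation_eq_one_of_not_mem_centerIdeal (A : ValuationSubring L)
    (hVA : V ≤ A.comap (algebraMap K L)) {b : integralClosure V L}
    (hb : b ∉ centerIdeal V A hVA) : A.valuation (b : L) = 1 := by
  rw [mem_centerIdeal_iff, not_lt] at hb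
  exact le_antisymm ((A.valuation_le_one_iff _).mpr (integral_mem V A hVA b.2)) hb

/-- The trace on `K` of a valuation subring of `L` is invariant under `Gal(L/K)`. -/
theorem comap_smul (σ : L ≃ₐ[K] L) (A : ValuationSubring L) :
    (σ • A).comap (algebraMap K L) = A.comap (algebraMap K L) := by
  ext c
  rw [ValuationSubring.mem_comap, ValuationSubring.mem_comap,
    ValuationSubring.mem_pointwise_smul_iff_inv_smul_mem]
  have : σ⁻¹ • algebraMap K L c = algebraMap K L c := by
    show σ⁻¹ (algebraMap K L c) = _
    exact AlgEquiv.commutes _ _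
  rw [this]

theorem centerIdeal_smul (σ : L ≃ₐ[K] L) (A : ValuationSubring L)
    (hVA : V ≤ A.comap (algebraMap K L)) (hVA' : V ≤ (σ • A).comap (algebraMap K L)) :
    centerIdeal V (σ • A) hVA' = σ • centerIdeal V A hVA := by
  ext b
  rw [mem_centerIdeal_iff, valuation_smul_lt_one_iff, Ideal.mem_pointwise_smul_iff_inv_smul_mem,
    mem_centerIdeal_iff]
  rfl

/-- Inclusion of centres forces inclusion of valuation subrings. -/
theorem le_of_centerIdeal_le [Algebra.IsAlgebraic K L] (A A' : ValuationSubring L)
    (h' : A.comap (algebraMap K L) ≤ A'.comap (algebraMap K L))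
    (h : centerIdeal _ A' h' ≤ centerIdeal _ A le_rfl) : A ≤ A' := by
  intro x hx
  obtain ⟨b, s, hb, hs, hvs, rfl⟩ := exists_integral_div A (Algebra.IsAlgebraic.isAlgebraic (R := K) x) hx
  have hsQ : (⟨s, hs⟩ : integralClosure (A.comap (algebraMap K L)) L) ∉ centerIdeal _ A' h' := by
    intro hmem
    have := h hmem
    rw [mem_centerIdeal_iff, hvs] at this
    exact lt_irrefl _ this
  have h1 : A'.valuation s = 1 := valuation_eq_one_of_not_mem_centerIdeal _ A' h' hsQ
  rw [← A'.valuation_le_one_iff, map_div₀, h1, div_one, A'.valuation_le_one_iff]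
  exact integral_mem _ A' h' hb

/-- A valuation subring of `L` is determined by its trace on `K` and its centre on the integral
closure of that trace. -/
theorem eq_of_centerIdeal_eq [Algebra.IsAlgebraic K L] (A A' : ValuationSubring L)
    (h' : A'.comap (algebraMap K L) = A.comap (algebraMap K L))
    (h : centerIdeal _ A' h'.ge = centerIdeal _ A le_rfl) : A = A' := by
  refine le_antisymm (le_of_centerIdeal_le A A' h'.ge h.le) ?_
  intro x hx
  obtain ⟨b, s, hb, hs, hvs, rfl⟩ := exists_integral_div A' (Algebra.IsAlgebraic.isAlgebraic (R := K) x) hx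
  rw [h'] at hb hs
  have hsQ : (⟨s, hs⟩ : integralClosure (A.comap (algebraMap K L)) L) ∉ centerIdeal _ A le_rfl := by
    intro hmem
    rw [← h, mem_centerIdeal_iff, hvs] at hmem
    exact lt_irrefl _ hmem
  have h1 : A.valuation s = 1 := valuation_eq_one_of_not_mem_centerIdeal _ A le_rfl hsQ
  rw [← A.valuation_le_one_iff, map_div₀, h1, div_one, A.valuation_le_one_iff]
  exact integral_mem _ A le_rfl hb

end Center

section Conj

variable {K L : Type*} [Field K] [Field L] [Algebra K L] [IsGalois K L]

/-- The integral closure of `V` in `L`, with the discrete topology, is a continuous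
`Gal(L/K)`-module. -/
theorem continuousSMul_integralClosure (V : ValuationSubring K) :
    letI : TopologicalSpace (integralClosure V L) := ⊥
    ContinuousSMul (L ≃ₐ[K] L) (integralClosure V L) := by
  letI : TopologicalSpace (integralClosure V L) := ⊥
  haveI : DiscreteTopology (integralClosure V L) := ⟨rfl⟩
  rw [continuousSMul_iff_stabilizer_isOpen]
  intro b
  have h : (MulAction.stabilizer (L ≃ₐ[K] L) b : Set (L ≃ₐ[K] L)) =
      (MulAction.stabilizer (L ≃ₐ[K] L) (b : L) : Set (L ≃ₐ[K] L)) := by
    ext g
    simp [MulAction.mem_stabilizer_iff, Subtype.ext_iff]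
  rw [h]
  exact stabilizer_isOpen_of_isIntegral (b : L)

/-- An element of `L` fixed by `Gal(L/K)` lies in `K`. -/
theorem mem_range_of_forall_apply_eq {b : L} (hb : ∀ g : L ≃ₐ[K] L, g b = b) :
    ∃ c : K, algebraMap K L c = b := by
  have h1 : b ∈ IntermediateField.fixedField (⊤ : Subgroup (L ≃ₐ[K] L)) := by
    rintro ⟨g, -⟩
    exact hb g
  have h2 : IntermediateField.fixedField (⊤ : Subgroup (L ≃ₐ[K] L)) = ⊥ := by
    rw [← IntermediateField.fixingSubgroup_bot]
    exact InfiniteGalois.fixedField_fixingSubgroup ⊥
  rw [h2, IntermediateField.mem_bot] at h1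
  exact h1

/-- Core of the conjugacy theorem: the centres are conjugate. -/
theorem exists_smul_centerIdeal_eq (V : ValuationSubring K) (A A' : ValuationSubring L)
    (hA : A.comap (algebraMap K L) = V) (hA' : A'.comap (algebraMap K L) = V) :
    ∃ g : L ≃ₐ[K] L, centerIdeal V A' hA'.ge = g • centerIdeal V A hA.ge := by
  letI : TopologicalSpace (integralClosure V L) := ⊥
  haveI : DiscreteTopology (integralClosure V L) := ⟨rfl⟩
  haveI : ContinuousSMul (L ≃ₐ[K] L) (integralClosure V L) := continuousSMul_integralClosure V
  haveI : Algebra.IsInvariant (FixedPoints.subalgebra ℤ (integralClosure V L) (L ≃ₐ[K] L))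
      (integralClosure V L) (L ≃ₐ[K] L) := ⟨fun b hb => ⟨⟨b, hb⟩, rfl⟩⟩
  have hunder : (centerIdeal V A hA.ge).under
        (FixedPoints.subalgebra ℤ (integralClosure V L) (L ≃ₐ[K] L))
      = (centerIdeal V A' hA'.ge).under
        (FixedPoints.subalgebra ℤ (integralClosure V L) (L ≃ₐ[K] L)) := by
    ext a
    rw [Ideal.under_def, Ideal.mem_comap, Ideal.mem_comap, mem_centerIdeal_iff,
      mem_centerIdeal_iff]
    obtain ⟨c, hc⟩ : ∃ c : K, algebraMap K L c = ((a : integralClosure V L) : L) := by
      apply mem_range_of_forall_apply_eq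
      intro g
      have := congrArg (fun z : integralClosure V L => (z : L)) (a.2 g)
      simpa using this
    show A.valuation ((a : integralClosure V L) : L) < 1 ↔
      A'.valuation ((a : integralClosure V L) : L) < 1
    rw [← hc, ← valuation_comap_lt_one_iff, ← valuation_comap_lt_one_iff, hA, hA']
  exact Algebra.IsInvariant.exists_smul_of_under_eq_of_profinite
    (A := FixedPoints.subalgebra ℤ (integralClosure V L) (L ≃ₐ[K] L)) (G := L ≃ₐ[K] L)
    (centerIdeal V A hA.ge) (centerIdeal V A' hA'.ge) hunder

/-- **Conjugacy.** Two valuation subrings of a (possibly infinite) Galois extension `L / K` with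
the same trace on `K` are conjugate under `Gal(L/K)`. -/
theorem exists_smul_eq_of_comap_eq (A A' : ValuationSubring L)
    (h : A'.comap (algebraMap K L) = A.comap (algebraMap K L)) :
    ∃ σ : L ≃ₐ[K] L, σ • A = A' := by
  obtain ⟨g, hg⟩ := exists_smul_centerIdeal_eq (A.comap (algebraMap K L)) A A' rfl h
  refine ⟨g, ?_⟩
  have h2 : A'.comap (algebraMap K L) = (g • A).comap (algebraMap K L) := by
    rw [comap_smul, h]
  apply eq_of_centerIdeal_eq (g • A) A' h2
  have h3 : centerIdeal ((g • A).comap (algebraMap K L)) (g • A) le_rfl =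
      g • centerIdeal ((g • A).comap (algebraMap K L)) A (comap_smul g A).le :=
    centerIdeal_smul _ g A _ _
  rw [h3]
  -- transport along `(g • A).comap = A.comap`
  have key : ∀ (V : ValuationSubring K) (hV : V = A.comap (algebraMap K L))
      (hg' : centerIdeal (A.comap (algebraMap K L)) A' h.ge =
        g • centerIdeal (A.comap (algebraMap K L)) A le_rfl),
      centerIdeal V A' (hV ▸ h.ge) = g • centerIdeal V A hV.le := by
    intro V hV hg'
    subst hV
    exact hg'
  exact key _ (comap_smul g A) hg

/-- The trace of `σ • A` on a normal subextension `E`. -/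
theorem comap_smul_restrictNormalHom {E : Type*} [Field E] [Algebra K E] [Algebra E L]
    [IsScalarTower K E L] [Normal K E] (σ : L ≃ₐ[K] L) (A : ValuationSubring L) :
    (σ • A).comap (algebraMap E L) =
      AlgEquiv.restrictNormalHom E σ • A.comap (algebraMap E L) := by
  ext e
  rw [ValuationSubring.mem_comap, ValuationSubring.mem_pointwise_smul_iff_inv_smul_mem,
    ValuationSubring.mem_pointwise_smul_iff_inv_smul_mem, ValuationSubring.mem_comap]
  have : algebraMap E L ((AlgEquiv.restrictNormalHom E σ)⁻¹ • e) = σ⁻¹ • algebraMap E L e := by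
    rw [← map_inv]
    exact AlgEquiv.restrictNormal_commutes σ⁻¹ E e
  rw [this]

/-- **Lifting decomposition groups.** For `L / K` Galois and `E` a normal subextension, every
element of the decomposition group of `A ∩ E` in `Gal(E/K)` is the restriction of an element of
the decomposition group of `A` in `Gal(L/K)`. -/
theorem exists_mem_decompositionSubgroup_restrictNormalHom_eq {E : Type*} [Field E] [Algebra K E]
    [Algebra E L] [IsScalarTower K E L] [Normal K E] (A : ValuationSubring L) (τ : E ≃ₐ[K] E)
    (hτ : τ ∈ (A.comap (algebraMap E L)).decompositionSubgroup K) :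
    ∃ σ ∈ A.decompositionSubgroup K, AlgEquiv.restrictNormalHom E σ = τ := by
  obtain ⟨σ₀, hσ₀⟩ := AlgEquiv.restrictNormalHom_surjective (F := K) (K₁ := E) L τ
  haveI : IsGalois E L := IsGalois.tower_top_of_isGalois K E L
  have hτ' : τ • (A.comap (algebraMap E L)) = A.comap (algebraMap E L) := hτ
  have h1 : (σ₀ • A).comap (algebraMap E L) = A.comap (algebraMap E L) := by
    rw [comap_smul_restrictNormalHom, hσ₀, hτ']
  obtain ⟨g, hg⟩ := exists_smul_eq_of_comap_eq (K := E) A (σ₀ • A) h1
  refine ⟨(g⁻¹).restrictScalars K * σ₀, ?_, ?_⟩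
  · show ((g⁻¹).restrictScalars K * σ₀) • A = A
    rw [mul_smul, ← hg]
    show g⁻¹ • g • A = A
    rw [inv_smul_smul]
  · rw [map_mul, hσ₀]
    have : AlgEquiv.restrictNormalHom E ((g⁻¹).restrictScalars K) = 1 := by
      ext e
      apply (algebraMap E L).injective
      have h3 := AlgEquiv.restrictNormal_commutes ((g⁻¹).restrictScalars K) E e
      refine h3.trans ?_
      show (g⁻¹) (algebraMap E L e) = _
      rw [AlgEquiv.commutes]
      rfl
    rw [this, one_mul]

end Conj

end Fermat.Agent.SW.Bridge.ValConj
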