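/-
MOONSHOT S52, leaf K1-E (bridge), part (G2-II), abstract core.

`R` a PID with fraction field `T`, `F / T` finite Galois, `Fb / T` a (possibly infinite) Galois
extension containing `F` (e.g. an algebraic closure in characteristic zero), `B` the integral
closure of `R` in `F`, `w` a maximal ideal of `B`.

If for every valuation subring `O` of `Fb` lying over `w` the decomposition group
`O.decompositionSubgroup T ≤ Gal(Fb/T)` acts trivially on `F`, then the stabiliser of `w` in
`Gal(F/T)` is trivial and `e(w | R) = 1` (`ramificationIdx_eq_one_of_decomposition_trivial`).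
-/
import Mathlib
import Fermat.Agent.SW.Bridge.ValConj
import Fermat.Agent.SW.Bridge.CenterR
import Fermat.Agent.FF.DiffExpGalois

set_option autoImplicit false
set_option linter.style.haveILetI false
set_option linter.unusedSectionVars false

namespace Fermat.Agent.SW.Bridge.UnramCore

open scoped Pointwise
open Fermat.Agent.SW.Bridge
open Fermat.Agent.S14 (valuation_smul_lt_one_iff valuation_comap_lt_one_iff)

attribute [local instance] CenterR.smulCommClass_of_tower

section Chevalley

variable {B F Fb : Type*} [CommRing B] [Field F] [Field Fb] [Algebra B F] [Algebra F Fb]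

/-- **Chevalley.** A valuation subring of `Fb` containing the image of `B` and centred at a given
maximal ideal of `B`. -/
theorem exists_valuationSubring_over (hinj : Function.Injective (algebraMap B F)) (w : Ideal B)
    [hw : w.IsMaximal] :
    ∃ O : ValuationSubring Fb, (∀ b : B, algebraMap F Fb (algebraMap B F b) ∈ O) ∧
      ∀ b : B, O.valuation (algebraMap F Fb (algebraMap B F b)) < 1 ↔ b ∈ w := by
  let f : B →+* Fb := (algebraMap F Fb).comp (algebraMap B F)
  have hf : Function.Injective f := (algebraMap F Fb).injective.comp hinj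
  have hbij : Function.Bijective f.rangeRestrict :=
    ⟨fun x y h => hf (congrArg (Subtype.val : f.range → Fb) h), f.rangeRestrict_surjective⟩
  have hI : w.map f.rangeRestrict ≠ ⊤ :=
    fun h => hw.ne_top ((Ideal.map_eq_top_of_bijective _ hbij).mp h)
  obtain ⟨O, hO1, hO2⟩ := Ideal.image_subset_nonunits_valuationSubring _ hI
  have hmem : ∀ b : B, algebraMap F Fb (algebraMap B F b) ∈ O := fun b => hO1 ⟨b, rfl⟩
  refine ⟨O, hmem, fun b => ⟨fun hb => ?_, fun hb => ?_⟩⟩
  · -- the centre is a proper ideal containing `w`
    by_contra hbw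
    obtain ⟨t, i, hi, hti⟩ := hw.exists_inv hbw
    have hi' : O.valuation (f i) < 1 := by
      rw [← O.mem_nonunits_iff]
      exact hO2 ⟨f.rangeRestrict i, Ideal.mem_map_of_mem _ hi, rfl⟩
    have h1 : f t * f b + f i = 1 := by
      rw [← map_mul, ← map_add, hti, map_one]
    have h2 : O.valuation (f t * f b) < 1 := by
      rw [map_mul]
      exact Right.mul_lt_one_of_le_of_lt ((O.valuation_le_one_iff _).mpr (hmem t)) hb
    have h3 := Valuation.map_add_lt _ h2 hi'
    rw [h1, map_one] at h3
    exact lt_irrefl _ h3
  · rw [← O.mem_nonunits_iff]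
    exact hO2 ⟨f.rangeRestrict b, Ideal.mem_map_of_mem _ hb, rfl⟩

end Chevalley

section Main

variable {R T F Fb : Type*} [CommRing R] [IsDomain R] [IsPrincipalIdealRing R]
  [Field T] [Algebra R T] [IsFractionRing R T]
  [Field F] [Algebra T F] [Algebra R F] [IsScalarTower R T F] [FiniteDimensional T F]
  [IsGalois T F]
  [Field Fb] [Algebra T Fb] [Algebra F Fb] [IsScalarTower T F Fb] [IsGalois T Fb]

theorem faithfulSMul_of_tower (R T F : Type*) [CommRing R] [Field T] [Algebra R T]
    [IsFractionRing R T] [Field F] [Algebra T F] [Algebra R F] [IsScalarTower R T F] :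
    FaithfulSMul R F := by
  rw [faithfulSMul_iff_algebraMap_injective]
  rw [IsScalarTower.algebraMap_eq R T F]
  exact (algebraMap T F).injective.comp (IsFractionRing.injective R T)

theorem isAlgebraic_of_tower (R T F : Type*) [CommRing R] [IsDomain R] [Field T] [Algebra R T]
    [IsFractionRing R T] [Field F] [Algebra T F] [Algebra R F] [IsScalarTower R T F]
    [Algebra.IsAlgebraic T F] (x : F) : IsAlgebraic R x :=
  (IsFractionRing.isAlgebraic_iff R T F).mpr (Algebra.IsAlgebraic.isAlgebraic x)

/-- The stabiliser of `w` is trivial if the decomposition groups over `w` act trivially on `F`. -/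
theorem stabilizer_eq_bot_of_decomposition_trivial
    (w : Ideal (integralClosure R F)) [hw : w.IsMaximal]
    (h : ∀ O : ValuationSubring Fb, (∀ b : integralClosure R F, algebraMap F Fb b ∈ O) →
      (∀ b : integralClosure R F, O.valuation (algebraMap F Fb b) < 1 ↔ b ∈ w) →
      ∀ σ ∈ O.decompositionSubgroup T, ∀ x : F, σ (algebraMap F Fb x) = algebraMap F Fb x) :
    MulAction.stabilizer (F ≃ₐ[T] F) w = ⊥ := by
  haveI : FaithfulSMul R F := faithfulSMul_of_tower R T F
  obtain ⟨O, hO1, hO2⟩ := exists_valuationSubring_over (Fb := Fb)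
    (B := integralClosure R F) (F := F) Subtype.val_injective w
  rw [eq_bot_iff]
  intro τ hτ
  rw [MulAction.mem_stabilizer_iff] at hτ
  rw [Subgroup.mem_bot]
  -- the trace of `O` on `F`
  set OF : ValuationSubring F := O.comap (algebraMap F Fb) with hOF
  have hROF : ∀ r : R, algebraMap R F r ∈ OF := fun r => by
    rw [hOF, ValuationSubring.mem_comap]
    exact hO1 (algebraMap R (integralClosure R F) r)
  have hcenter : CenterR.centerIdeal OF hROF = w := by
    ext b
    rw [CenterR.mem_centerIdeal_iff, hOF, valuation_comap_lt_one_iff]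
    exact hO2 b
  have halg : ∀ x : F, IsAlgebraic R x := isAlgebraic_of_tower R T F
  have hID : CenterR.HasIntDiv R OF := CenterR.hasIntDiv_of_isBezout halg OF hROF
  have hROF' : ∀ r : R, algebraMap R F r ∈ τ • OF := CenterR.smul_mem_of_tower τ OF hROF
  have hID' : CenterR.HasIntDiv R (τ • OF) := hID.smul τ
  have hτOF : τ • OF = OF := by
    symm
    apply CenterR.eq_of_centerIdeal_eq OF (τ • OF) hID hID' hROF hROF'
    rw [CenterR.centerIdeal_smul τ OF hROF hROF', hcenter, hτ]
  have hτD : τ ∈ OF.decompositionSubgroup T := hτOF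
  obtain ⟨σ, hσD, hσ⟩ :=
    ValConj.exists_mem_decompositionSubgroup_restrictNormalHom_eq (K := T) (L := Fb) (E := F)
      O τ hτD
  ext x
  apply (algebraMap F Fb).injective
  rw [← hσ]
  have h1 := AlgEquiv.restrictNormal_commutes σ F x
  refine h1.trans ?_
  exact h O hO1 hO2 σ hσD x

variable [IsDedekindDomain (integralClosure R F)] [Module.Finite R (integralClosure R F)]
  [Module.IsTorsionFree R (integralClosure R F)] [IsFractionRing (integralClosure R F) F]

/-- **Bridge, abstract core**: `e(w | R) = 1` if the decomposition groups over `w` act trivially on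
`F`. -/
theorem ramificationIdx_eq_one_of_decomposition_trivial
    (w : Ideal (integralClosure R F)) [hw : w.IsMaximal]
    (h : ∀ O : ValuationSubring Fb, (∀ b : integralClosure R F, algebraMap F Fb b ∈ O) →
      (∀ b : integralClosure R F, O.valuation (algebraMap F Fb b) < 1 ↔ b ∈ w) →
      ∀ σ ∈ O.decompositionSubgroup T, ∀ x : F, σ (algebraMap F Fb x) = algebraMap F Fb x) :
    w.ramificationIdx R = 1 := by
  have hstab := stabilizer_eq_bot_of_decomposition_trivial (T := T) (Fb := Fb) w h
  haveI : IsGaloisGroup (F ≃ₐ[T] F) R (integralClosure R F) := .of_isFractionRing _ _ _ T F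
  have hw' : w.IsPrime := hw.isPrime
  have hcount := Fermat.Agent.FF.ramificationIdx_mul_inertiaDeg_eq_card_stabilizer (A := R)
    (B := integralClosure R F) (F ≃ₐ[T] F) w
  rw [hstab, Subgroup.card_bot] at hcount
  exact (mul_eq_one.mp hcount).1

end Main

end Fermat.Agent.SW.Bridge.UnramCore
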